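import Fermat.Agent.INJ.Inst.AllInst

/-!
# INJ / Inst : Claim K in the strong form `S18.Stmt_ClaimK` (no hypothesis that the common reduction
lies in the function field over the residue field), as used by the ES chain.
-/

set_option autoImplicit false
set_option synthInstance.maxHeartbeats 400000
set_option linter.style.haveILetI false

noncomputable section

namespace Fermat.Agent.INJ.Inst

open AlgebraicCurve ModularCurve IntermediateField Polynomial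
open Fermat.Agent Fermat.Agent.S24 Fermat.Agent.INJ.Inst.Descent

/-- Claim K at `(N, ℓ, A)` without the membership hypothesis. -/
def CKF_at (N : ℕ) (ℓ : ℕ) (A : ValuationSubring Qb) : Prop :=
  ∀ m : ℕ, ¬ ℓ ∣ m → ∀ (y₁ y₂ : LaurentSeries A)
    (h₁ : coeffMap A.subtype y₁ ∈ modularFunctionFieldBar N)
    (h₂ : coeffMap A.subtype y₂ ∈ modularFunctionFieldBar N),
    coeffMap (IsLocalRing.residue A) y₁ = coeffMap (IsLocalRing.residue A) y₂ →
    coeffMap (IsLocalRing.residue A) y₁ ≠ 0 →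
    (∀ P : Place Qb (modularFunctionFieldBar N),
      (m : ℤ) ∣ P.ord ((⟨_, h₁⟩ : modularFunctionFieldBar N) / ⟨_, h₂⟩)) →
    ∃ g : modularFunctionFieldBar N, g ^ m = (⟨_, h₁⟩ : modularFunctionFieldBar N) / ⟨_, h₂⟩

theorem CKF_M (M N : ℕ) [NeZero N] (ℓ : ℕ) [Fact ℓ.Prime] (hM : M = 2 ∨ M = 3) (hMN : M ∣ N)
    (hℓN : ¬ ℓ ∣ N) (A : ValuationSubring Qb) (hA : A.LiesOverPrime ℓ) : CKF_at N ℓ A := by
  intro m hm y₁ y₂ h₁ h₂ he hne hdiv
  obtain ⟨L, D, hD⟩ := stmt_ExGauss N ℓ A hA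
  have hN0 : N ≠ 0 := NeZero.ne N
  have htmem : tS M N Qb ∈ modularFunctionFieldBar N := tS_mem_bar hM hN0 hMN
  obtain ⟨t, ht⟩ : ∃ t : FL N, (t : LaurentSeries Qb) = tS M N Qb := ⟨⟨_, htmem⟩, rfl⟩
  have hC : Chart D t := all_ChartT M N ℓ hM hMN hℓN A hA L D hD t ht
  have hC' : Chart D t⁻¹ := stmt_ChartInv _ _ _ _ D t hC
  obtain ⟨hB, hB'⟩ := all_BranchT M N ℓ hM hMN hℓN A hA L D hD t ht
  have hArch : Arch D := AR36_stmt_ArchD N ℓ A hA L D hD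
  obtain ⟨h1O, h1r⟩ := hD.rd y₁ h₁
  obtain ⟨h2O, h2r⟩ := hD.rd y₂ h₂
  have h2ne : D.rd (⟨_, h₂⟩ : FL N) ≠ 0 := by
    intro h0
    apply hne
    rw [he, ← h2r, h0]
    rfl
  have h12 : D.rd (⟨_, h₁⟩ : FL N) = D.rd (⟨_, h₂⟩ : FL N) :=
    Subtype.ext (h1r.trans (he.trans h2r.symm))
  have hu : D.rd ((⟨_, h₁⟩ : FL N) / ⟨_, h₂⟩) = 1 := by
    rw [RedData.rd_div h1O h2ne, h12, div_self h2ne]
  have hm0 : 0 < m := by
    rcases Nat.eq_zero_or_pos m with rfl | h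
    · exact absurd (dvd_zero ℓ) hm
    · exact h
  have hmk : (m : kA A) ≠ 0 :=
    CS.natCast_ne_zero A hA
      (Nat.Coprime.symm ((Nat.Prime.coprime_iff_not_dvd (Fact.out : ℓ.Prime)).2 hm))
  have htr : Transcendental Qb t :=
    Final_transcendental t (by rw [ht]; exact transcendental_tS Qb hN0 hMN)
  have hu0 : ((⟨_, h₁⟩ : FL N) / ⟨_, h₂⟩) ≠ 0 := by
    intro h0
    rw [h0, RedData.rd_zero] at hu
    exact zero_ne_one hu
  have hL := stmt_LocPow Qb (FL N) t _ m htr hC.fin hu0 hm0 hdiv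
  have hL' := stmt_LocPow Qb (FL N) t⁻¹ _ m (Final_transcendental_inv htr) hC'.fin hu0 hm0 hdiv
  exact all_INJ Qb (FL N) (kA A) L D t hC hC' hB hB' hArch _ m hm0 hmk hu hL hL'

theorem CKF_step {N N' : ℕ} [NeZero N] [NeZero N'] (hNN' : N ∣ N') (ℓ : ℕ)
    (A : ValuationSubring Qb) (hK : CKF_at N' ℓ A)
    (m : ℕ) (hm : ¬ ℓ ∣ m) (y₁ y₂ : LaurentSeries A)
    (h₁ : coeffMap A.subtype y₁ ∈ modularFunctionFieldBar N)
    (h₂ : coeffMap A.subtype y₂ ∈ modularFunctionFieldBar N)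
    (heq : coeffMap (IsLocalRing.residue A) y₁ = coeffMap (IsLocalRing.residue A) y₂)
    (hne : coeffMap (IsLocalRing.residue A) y₁ ≠ 0)
    (hdiv : ∀ P : Place Qb (modularFunctionFieldBar N),
      (m : ℤ) ∣ P.ord ((⟨_, h₁⟩ : modularFunctionFieldBar N) / ⟨_, h₂⟩)) :
    ∃ g : modularFunctionFieldBar N, g ^ m = ((⟨_, h₁⟩ : modularFunctionFieldBar N) / ⟨_, h₂⟩) ^
      relfinrank (modularFunctionFieldBar N) (modularFunctionFieldBar N') := by
  have hle := bar_le hNN'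
  letI : Algebra (modularFunctionFieldBar N) (modularFunctionFieldBar N') :=
    (IntermediateField.inclusion hle).toRingHom.toAlgebra
  haveI : IsScalarTower Qb (modularFunctionFieldBar N) (modularFunctionFieldBar N') :=
    IsScalarTower.of_algebraMap_eq (fun x => rfl)
  obtain ⟨g, hg⟩ := hK m hm y₁ y₂ (hle h₁) (hle h₂) heq hne (fun P' => by
      have h := places_dvd (K := Qb) (F' := modularFunctionFieldBar N') (m : ℤ) _ hdiv P'
      rw [map_div₀] at h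
      exact h)
  exact exists_pow_eq_pow_relfinrank hle m _ g (by
    have := congrArg Subtype.val hg
    simpa using this)

theorem CKF_descent (N : ℕ) [NeZero N] (ℓ : ℕ) [Fact ℓ.Prime] (A : ValuationSubring Qb)
    (h : ∀ M : ℕ, M = 2 ∨ M = 3 → M ≠ ℓ → CKF_at (N.lcm M) ℓ A) :
    CKF_at N ℓ A := by
  intro m hm y₁ y₂ h₁ h₂ heq hne hdiv
  have hm0 : m ≠ 0 := by
    rintro rfl
    exact hm (dvd_zero _)
  haveI h2ne : NeZero (N.lcm 2) := ⟨Nat.lcm_ne_zero (NeZero.ne N) two_ne_zero⟩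
  haveI h3ne : NeZero (N.lcm 3) := ⟨Nat.lcm_ne_zero (NeZero.ne N) three_ne_zero⟩
  have hd2 := relfinrank_lcm_dvd N Nat.prime_two
  have hd3 := relfinrank_lcm_dvd N Nat.prime_three
  have hself : ∃ g : modularFunctionFieldBar N,
      g ^ m = ((⟨_, h₁⟩ : modularFunctionFieldBar N) / ⟨_, h₂⟩) ^ m := ⟨_, rfl⟩
  by_cases hl2 : ℓ = 2
  · have s3 := CKF_step (Nat.dvd_lcm_left N 3) ℓ A (h 3 (Or.inr rfl) (by omega)) m hm y₁ y₂ h₁ h₂
      heq hne hdiv
    refine exists_pow_of_coprime _ m _ m hm0 ?_ s3 hself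
    refine Nat.Coprime.coprime_dvd_left hd3 ?_
    have : Nat.Coprime 2 m := (Nat.Prime.coprime_iff_not_dvd Nat.prime_two).2 (hl2 ▸ hm)
    exact Nat.Coprime.pow_left 2 this
  have s2 := CKF_step (Nat.dvd_lcm_left N 2) ℓ A (h 2 (Or.inl rfl) (Ne.symm hl2)) m hm y₁ y₂ h₁ h₂
      heq hne hdiv
  by_cases hl3 : ℓ = 3
  · refine exists_pow_of_coprime _ m _ m hm0 ?_ s2 hself
    refine Nat.Coprime.coprime_dvd_left hd2 ?_
    exact (Nat.Prime.coprime_iff_not_dvd Nat.prime_three).2 (hl3 ▸ hm)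
  have s3 := CKF_step (Nat.dvd_lcm_left N 3) ℓ A (h 3 (Or.inr rfl) (Ne.symm hl3)) m hm y₁ y₂ h₁ h₂
      heq hne hdiv
  refine exists_pow_of_coprime _ m _ _ hm0 ?_ s2 s3
  exact Nat.Coprime.coprime_dvd_left hd2 (Nat.Coprime.coprime_dvd_right hd3 (by norm_num))

theorem CKF_all (N : ℕ) [NeZero N] (ℓ : ℕ) [Fact ℓ.Prime] (hℓN : ¬ ℓ ∣ N)
    (A : ValuationSubring Qb) (hA : A.LiesOverPrime ℓ) : CKF_at N ℓ A := by
  apply CKF_descent N ℓ A
  intro M hM hMℓ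
  have hM0 : M ≠ 0 := by rcases hM with rfl | rfl <;> norm_num
  have : NeZero (N.lcm M) := ⟨Nat.lcm_ne_zero (NeZero.ne N) hM0⟩
  have hMp : M.Prime := by rcases hM with rfl | rfl <;> norm_num
  refine CKF_M M (N.lcm M) ℓ hM (Nat.dvd_lcm_right N M) ?_ A hA
  intro hd
  have hℓ : ℓ.Prime := Fact.out
  have h1 : ℓ ∣ N * M := hd.trans (Nat.lcm_dvd_mul N M)
  rcases hℓ.dvd_mul.1 h1 with h2 | h2
  · exact hℓN h2
  · exact hMℓ ((Nat.prime_dvd_prime_iff_eq hℓ hMp).1 h2).symm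

/-- **Claim K**, in the form used by the ES chain. -/
theorem stmt_ClaimK : S18.Stmt_ClaimK := by
  intro N _ ℓ _ hℓN A hA m hm y₁ y₂ h₁ h₂ he hne hdiv
  exact CKF_all N ℓ hℓN A hA m hm y₁ y₂ h₁ h₂ he (he ▸ hne) hdiv

end Fermat.Agent.INJ.Inst

end
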