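import Fermat.Agent.S24.UnifFinite
import Fermat.Agent.S24.DegreeBound
import Fermat.Agent.S24.Comb
import Fermat.Agent.S24.CountZerosCore
import Fermat.Agent.S20.CombPsi

/-!
# INJ / Inst / I-8 (b),(c): degrees of the function fields, norm descent
-/

set_option autoImplicit false
set_option synthInstance.maxHeartbeats 400000

noncomputable section

namespace Fermat.Agent.INJ.Inst.Descent

open AlgebraicCurve IntermediateField ModularCurve Fermat.Agent.S24

/-- `[F_N : ℚ̄(j)] = ψ(N)`. -/
theorem finrank_FF (N : ℕ) [NeZero N] :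
    Module.finrank Qbar⟮jF N⟯ (FF N) = dedekindPsi N := by
  classical
  obtain ⟨hfd, hn⟩ := finrank_FF_le N
  let _ := Fintype.ofFinite (Cosets N)
  obtain ⟨U⟩ := localUnif_finite N 0
  rw [map_zero, sub_zero] at U
  have h1 := U.card_le_finrank
  rw [← Nat.card_eq_fintype_card] at h1
  rw [← card_cosets]
  exact le_antisymm hn h1

/-- `ℚ̄(j) ⊆ ℚ̄((q))`. -/
abbrev E0 : IntermediateField Qbar (LaurentSeries Qbar) := Qbar⟮jBarSeries 1⟯

theorem E0_le (N : ℕ) : E0 ≤ modularFunctionFieldBar N := by
  rw [adjoin_simple_le_iff]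
  exact jBarSeries_mem (one_dvd N)

theorem relfinrank_E0 (N : ℕ) [NeZero N] :
    relfinrank E0 (modularFunctionFieldBar N) = dedekindPsi N := by
  have h := relfinrank_map_map (A := Qbar⟮jF N⟯) (B := ⊤) (modularFunctionFieldBar N).val
  rw [relfinrank_top_right, finrank_FF, adjoin_map, Set.image_singleton, ← AlgHom.fieldRange_eq_map,
    fieldRange_val] at h
  exact h

theorem bar_le {N N' : ℕ} [NeZero N] [NeZero N'] (h : N ∣ N') :
    modularFunctionFieldBar N ≤ modularFunctionFieldBar N' := by
  apply IntermediateField.adjoin.mono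
  apply Set.image_mono
  exact full_degeneracy_le h

theorem psi_mul_relfinrank {N N' : ℕ} [NeZero N] [NeZero N'] (h : N ∣ N') :
    dedekindPsi N * relfinrank (modularFunctionFieldBar N) (modularFunctionFieldBar N') =
      dedekindPsi N' := by
  rw [← relfinrank_E0 N, ← relfinrank_E0 N']
  exact relfinrank_mul_relfinrank (E0_le N) (bar_le h)

/-- norm descent, general form. -/
theorem exists_pow_eq_pow_relfinrank {K M : Type*} [Field K] [Field M] [Algebra K M]
    {F F' : IntermediateField K M} (h : F ≤ F') (m : ℕ) (u : F) (g : F')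
    (hg : (g : M) ^ m = (u : M)) :
    ∃ g' : F, g' ^ m = u ^ relfinrank F F' := by
  let g₁ : extendScalars h := ⟨(g : M), g.2⟩
  refine ⟨Algebra.norm F g₁, ?_⟩
  rw [← map_pow, relfinrank_eq_finrank_of_le h, ← Algebra.norm_algebraMap]
  congr 1
  exact Subtype.ext hg

theorem psi_pos (N : ℕ) [NeZero N] : 0 < dedekindPsi N := by
  rw [← finrank_FF N]
  have := (finrank_FF_le N).1
  exact Module.finrank_pos

/-- the degree of `F_{lcm(N,p)} / F_N` divides `p + 1` (`p` prime). -/
theorem relfinrank_lcm_dvd (N : ℕ) [NeZero N] {p : ℕ} (hp : p.Prime) [NeZero (N.lcm p)] :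
    relfinrank (modularFunctionFieldBar N) (modularFunctionFieldBar (N.lcm p)) ∣ p + 1 := by
  have h := psi_mul_relfinrank (Nat.dvd_lcm_left N p)
  by_cases hpN : p ∣ N
  · have h1 : N.lcm p = N := Nat.lcm_eq_left hpN
    have h2 : relfinrank (modularFunctionFieldBar N) (modularFunctionFieldBar (N.lcm p)) = 1 := by
      apply Nat.eq_of_mul_eq_mul_left (psi_pos N)
      rw [h, mul_one, h1]
    rw [h2]
    exact one_dvd _
  · have h1 : N.lcm p = p * N := by
      rw [Nat.Coprime.lcm_eq_mul ((Nat.Prime.coprime_iff_not_dvd hp).2 hpN).symm, mul_comm]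
    have h2 : relfinrank (modularFunctionFieldBar N) (modularFunctionFieldBar (N.lcm p)) = p + 1 := by
      apply Nat.eq_of_mul_eq_mul_left (psi_pos N)
      rw [h, h1, Fermat.Agent.S20.dedekindPsi_prime_mul_of_not_dvd hp (NeZero.ne N) hpN, mul_comm]
    rw [h2]

end Fermat.Agent.INJ.Inst.Descent
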