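import Fermat.Agent.S27.CH3a
import Fermat.Agent.S24.PlaceBasic

/-!
# INJ / Inst / I-8 (a): divisibility of the divisor passes to extension fields
-/

set_option autoImplicit false

namespace Fermat.Agent.INJ.Inst.Descent

open AlgebraicCurve Fermat.Agent.S24

variable {K F F' : Type*} [Field K] [Field F] [Field F'] [Algebra K F] [Algebra K F']
  [Algebra F F'] [IsScalarTower K F F']

/-- the restriction of `ord_{P'}` to a subfield is a `ℤ`-valued valuation. -/
theorem isVal_restrict (P' : Place K F') :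
    IsVal K (fun f : F => P'.ord (algebraMap F F' f)) where
  map_mul a b ha hb := by
    simp only [map_mul]
    exact P'.ord_mul ((map_ne_zero _).2 ha) ((map_ne_zero _).2 hb)
  map_add a b ha hb hab := by
    simp only [map_add]
    exact ord_add_ge P' ((map_ne_zero _).2 ha) ((map_ne_zero _).2 hb)
      (by rw [← map_add]; exact (map_ne_zero _).2 hab)
  map_const a _ := by
    simp only [← IsScalarTower.algebraMap_apply K F F']
    exact ord_algebraMap P' a

/-- If the divisor of `u ∈ F` is divisible by `m`, so is the divisor of `u` in any extension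
field. -/
theorem places_dvd (m : ℤ) (u : F) (h : ∀ P : Place K F, m ∣ P.ord u) (P' : Place K F') :
    m ∣ P'.ord (algebraMap F F' u) := by
  rcases eq_or_ne u 0 with rfl | hu
  · simp
  set V : F → ℤ := fun f : F => P'.ord (algebraMap F F' f) with hV
  have hval : IsVal K V := isVal_restrict P'
  let H : AddSubgroup ℤ :=
    { carrier := {n | ∃ f : F, f ≠ 0 ∧ V f = n}
      zero_mem' := ⟨1, one_ne_zero, hval.map_one⟩
      add_mem' := by
        rintro _ _ ⟨f, hf, rfl⟩ ⟨g, hg, rfl⟩
        exact ⟨f * g, mul_ne_zero hf hg, hval.map_mul f g hf hg⟩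
      neg_mem' := by
        rintro _ ⟨f, hf, rfl⟩
        exact ⟨f⁻¹, inv_ne_zero hf, hval.map_inv hf⟩ }
  obtain ⟨e₀, he⟩ := Int.subgroup_cyclic H
  set e : ℤ := |e₀| with he_def
  have hmem : ∀ f : F, f ≠ 0 → ∃ n : ℤ, V f = n * e := by
    intro f hf
    have h1 : V f ∈ H := ⟨f, hf, rfl⟩
    rw [he, AddSubgroup.mem_closure_singleton] at h1
    obtain ⟨n, hn⟩ := h1
    refine ⟨n * e₀.sign, ?_⟩
    rw [← hn, smul_eq_mul, mul_assoc, he_def, Int.sign_mul_abs]
  rcases eq_or_ne e 0 with he0 | he0
  · obtain ⟨n, hn⟩ := hmem u hu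
    change m ∣ V u
    rw [hn, he0, mul_zero]
    exact dvd_zero m
  have hepos : 0 < e := lt_of_le_of_ne (abs_nonneg e₀) (Ne.symm he0)
  have heH : e ∈ H := by
    have h0 : e₀ ∈ H := by
      rw [he]
      exact AddSubgroup.mem_closure_singleton_self e₀
    rcases abs_choice e₀ with h1 | h1
    · rw [he_def, h1]; exact h0
    · rw [he_def, h1]; exact H.neg_mem h0
  obtain ⟨π, hπ0, hπ⟩ := heH
  have hdiv : ∀ f : F, f ≠ 0 → V f / e * e = V f := by
    intro f hf
    obtain ⟨n, hn⟩ := hmem f hf
    rw [hn, Int.mul_ediv_cancel _ he0]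
  have hval' : IsVal K (fun f : F => V f / e) :=
    { map_mul := by
        intro a b ha hb
        apply mul_right_cancel₀ he0
        rw [add_mul, hdiv a ha, hdiv b hb, hdiv _ (mul_ne_zero ha hb), hval.map_mul a b ha hb]
      map_add := by
        intro a b ha hb hab
        have h1 := hval.map_add a b ha hb hab
        rcases min_le_iff.1 h1 with h2 | h2
        · exact min_le_iff.2 (Or.inl (Int.ediv_le_ediv hepos h2))
        · exact min_le_iff.2 (Or.inr (Int.ediv_le_ediv hepos h2))
      map_const := by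
        intro a ha
        rw [hval.map_const a ha, Int.zero_ediv] }
  obtain ⟨P, hP⟩ := Fermat.Agent.S27.ch3a K F (fun f : F => V f / e) hval'
    ⟨π, hπ0, by simp only [hπ]; exact Int.ediv_self he0⟩
  obtain ⟨c, hc⟩ := h P
  change m ∣ V u
  rw [← hdiv u hu, ← hP u hu, hc]
  exact ⟨c * e, by ring⟩

end Fermat.Agent.INJ.Inst.Descent
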