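import Fermat.Agent.INJ.Inst.Basic
import Fermat.Agent.S24.QExpHom
import Fermat.Agent.S24.LiftHom
import Fermat.Agent.S24.JBasic

/-!
# INJ / Inst : [W] the Fricke involution of `FL N`
-/

set_option autoImplicit false

noncomputable section

namespace Fermat.Agent.INJ.Inst

open AlgebraicCurve ModularCurve UpperHalfPlane
open Fermat.Agent
open Fermat.Agent.S24 (Qbar FF funAlg jFun jFunD jAlg jBar)
open Fermat.Agent.S24.QX (qExpHom)
open scoped MatrixGroups

attribute [local instance] Fermat.Agent.S24.algQbarComplex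

/-- `τ ↦ -1/(Nτ)`. -/
def frickeW (N : ℕ) (τ : ℍ) : ℍ := ModularGroup.S • (ofComplex ((N : ℂ) * (τ : ℂ)))

theorem fricke_coe_S_smul (z : ℍ) : ((ModularGroup.S • z : ℍ) : ℂ) = (-(z : ℂ))⁻¹ := by
  rw [modular_S_smul]

theorem fricke_coe_W {N : ℕ} (hN : 0 < N) (τ : ℍ) :
    ((frickeW N τ : ℍ) : ℂ) = (-((N : ℂ) * (τ : ℂ)))⁻¹ := by
  rw [frickeW, fricke_coe_S_smul, S24.QX.coe_ofComplex_natCast_mul hN]

theorem fricke_W_W {N : ℕ} (hN : 0 < N) (τ : ℍ) : frickeW N (frickeW N τ) = τ := by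
  apply UpperHalfPlane.ext
  rw [fricke_coe_W hN, fricke_coe_W hN]
  have h1 : (N : ℂ) ≠ 0 := by exact_mod_cast hN.ne'
  have h2 : (τ : ℂ) ≠ 0 := ne_zero τ
  field_simp

theorem fricke_jFunD {N d : ℕ} (hN : 0 < N) (hd : d ∣ N) (τ : ℍ) :
    jFunD d (frickeW N τ) = jFunD (N / d) τ := by
  obtain ⟨e, rfl⟩ := hd
  have hd0 : 0 < d := Nat.pos_of_mul_pos_right hN
  have he0 : 0 < e := Nat.pos_of_mul_pos_left hN
  rw [Nat.mul_div_cancel_left _ hd0]
  unfold jFunD
  have h : (d : ℂ) * ((frickeW (d * e) τ : ℍ) : ℂ) =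
      ((ModularGroup.S • (ofComplex ((e : ℂ) * (τ : ℂ))) : ℍ) : ℂ) := by
    rw [fricke_coe_W hN, fricke_coe_S_smul, S24.QX.coe_ofComplex_natCast_mul he0]
    have h1 : (d : ℂ) ≠ 0 := by exact_mod_cast hd0.ne'
    have h2 : (e : ℂ) ≠ 0 := by exact_mod_cast he0.ne'
    have h3 : (τ : ℂ) ≠ 0 := ne_zero τ
    push_cast
    field_simp
  rw [h, ofComplex_apply, S24.jFun_smul]

/-- precomposition with `frickeW N`. -/
def frickePre (N : ℕ) : (ℍ → ℂ) →ₐ[Qbar] (ℍ → ℂ) where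
  toFun θ := fun τ => θ (frickeW N τ)
  map_one' := rfl
  map_mul' _ _ := rfl
  map_zero' := rfl
  map_add' _ _ := rfl
  commutes' _ := rfl

theorem frickePre_apply (N : ℕ) (θ : ℍ → ℂ) (τ : ℍ) : frickePre N θ τ = θ (frickeW N τ) := rfl

theorem frickePre_jFunD {N d : ℕ} (hN : 0 < N) (hd : d ∣ N) :
    frickePre N (jFunD d) = jFunD (N / d) := by
  funext τ
  exact fricke_jFunD hN hd τ

theorem frickePre_mem {N : ℕ} (hN : 0 < N) {θ : ℍ → ℂ} (hθ : θ ∈ funAlg N) :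
    frickePre N θ ∈ funAlg N := by
  have : funAlg N ≤ (funAlg N).comap (frickePre N) := by
    refine Algebra.adjoin_le ?_
    rintro _ ⟨d, hd, rfl⟩
    show frickePre N (jFunD d) ∈ funAlg N
    rw [frickePre_jFunD hN hd]
    exact S24.jFunD_mem_funAlg (Nat.div_dvd_of_dvd hd)
  exact this hθ

/-- The Fricke involution of `funAlg N`. -/
def frickeAlg (N : ℕ) [NeZero N] : funAlg N →ₐ[Qbar] funAlg N :=
  ((frickePre N).comp (funAlg N).val).codRestrict (funAlg N)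
    (fun θ => frickePre_mem (NeZero.pos N) θ.2)

theorem frickeAlg_coe (N : ℕ) [NeZero N] (θ : funAlg N) :
    ((frickeAlg N θ : funAlg N) : ℍ → ℂ) = frickePre N (θ : ℍ → ℂ) := rfl

theorem frickeAlg_frickeAlg (N : ℕ) [NeZero N] (θ : funAlg N) :
    frickeAlg N (frickeAlg N θ) = θ := by
  apply Subtype.ext
  funext τ
  rw [frickeAlg_coe, frickeAlg_coe, frickePre_apply, frickePre_apply, fricke_W_W (NeZero.pos N)]

theorem frickeAlg_injective (N : ℕ) [NeZero N] : Function.Injective (frickeAlg N) :=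
  Function.LeftInverse.injective (frickeAlg_frickeAlg N)

theorem frickeAlg_jAlg (N : ℕ) [NeZero N] (d : ℕ) (hd : d ∣ N) :
    frickeAlg N (jAlg N d hd) = jAlg N (N / d) (Nat.div_dvd_of_dvd hd) :=
  Subtype.ext (frickePre_jFunD (NeZero.pos N) hd)

theorem fricke_frac (N : ℕ) [NeZero N] (f : FF N) :
    ∃ a b : funAlg N, b ≠ 0 ∧ f * qExpHom N b = qExpHom N a := by
  obtain ⟨r, hr, s, hs, hf⟩ :=
    IntermediateField.mem_adjoin_iff_div.mp (S24.QX.modularFunctionFieldBar_le N f.2)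
  obtain ⟨a, ha⟩ := S24.QX.exists_qExpFun_eq N hr
  obtain ⟨b, hb⟩ := S24.QX.exists_qExpFun_eq N hs
  by_cases hs0 : s = 0
  · refine ⟨0, 1, one_ne_zero, ?_⟩
    have hf0 : f = 0 := Subtype.ext (by rw [hf, hs0, div_zero]; rfl)
    rw [hf0, zero_mul, map_zero]
  · refine ⟨a, b, ?_, ?_⟩
    · rintro rfl
      apply hs0
      rw [← hb]
      exact congrArg Subtype.val (map_zero (qExpHom N))
    · apply Subtype.ext
      show (f : LaurentSeries Qbar) * S24.QX.qExpFun N b = S24.QX.qExpFun N a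
      rw [ha, hb, hf, div_mul_cancel₀ _ hs0]

/-- The Fricke involution of `FF N`, as a homomorphism. -/
def frickeHom (N : ℕ) [NeZero N] : FF N →ₐ[Qbar] FF N :=
  S24.liftHom (qExpHom N) (S24.QX.qExpHom_injective N) (fricke_frac N)
    ((qExpHom N).comp (frickeAlg N))
    ((S24.QX.qExpHom_injective N).comp (frickeAlg_injective N))

theorem frickeHom_qExpHom (N : ℕ) [NeZero N] (θ : funAlg N) :
    frickeHom N (qExpHom N θ) = qExpHom N (frickeAlg N θ) :=
  S24.liftHom_apply _ _ _ _ _ θ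

theorem frickeHom_comp_self (N : ℕ) [NeZero N] :
    (frickeHom N).comp (frickeHom N) = AlgHom.id Qbar (FF N) := by
  refine S24.algHom_ext_of_frac (qExpHom N) (S24.QX.qExpHom_injective N) (fricke_frac N) _ _ ?_
  intro θ
  rw [AlgHom.comp_apply, frickeHom_qExpHom, frickeHom_qExpHom, frickeAlg_frickeAlg]
  rfl

/-- The Fricke involution of `FF N`. -/
def frickeEquiv (N : ℕ) [NeZero N] : FF N ≃ₐ[Qbar] FF N :=
  AlgEquiv.ofAlgHom (frickeHom N) (frickeHom N) (frickeHom_comp_self N) (frickeHom_comp_self N)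

theorem fricke_coe_jBar (N d : ℕ) [NeZero d] (hd : d ∣ N) :
    ((jBar N d hd : FF N) : LaurentSeries Qb) = S28.jd Qb d := by
  show S24.jBarSeries d = _
  rw [S24.jBarSeries, coeffEmb, coeffMap_qExpand, ← jqModC_rat, coeffMap_jqModC, S28.jd, S28.Vq_eq]

theorem stmt_Fricke : Stmt_Fricke := by
  intro N _
  refine ⟨frickeEquiv N, ?_⟩
  intro d hd x y hx hy
  have hd0 : NeZero d := ⟨fun h0 => NeZero.ne N (by rw [h0] at hd; exact Nat.eq_zero_of_zero_dvd hd)⟩
  have he0 : NeZero (N / d) := ⟨div_ne_zero_of_dvd (NeZero.ne N) hd⟩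
  have hx' : x = jBar N d hd := Subtype.ext (by rw [hx, fricke_coe_jBar])
  have hy' : y = jBar N (N / d) (Nat.div_dvd_of_dvd hd) :=
    Subtype.ext (by rw [hy, fricke_coe_jBar])
  show frickeHom N x = y
  rw [hx', hy', ← S24.QX.qExpHom_jAlg, frickeHom_qExpHom, frickeAlg_jAlg, S24.QX.qExpHom_jAlg]

end Fermat.Agent.INJ.Inst

end
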