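import Fermat.Agent.S28.BaseCase
import Fermat.Agent.S28.Factor
import Fermat.Agent.S28.NewPrime
import Fermat.Agent.S28.Lower
import Fermat.Agent.S28.Upper
import Fermat.Agent.S28.Tower
import Fermat.Agent.S28.FN7f
import Fermat.Agent.S24.FFGen

/-!
# INJ / Inst / [T] : the S28 tower for a general algebraically closed field `k`, and spanning over `ℚ̄`
-/

set_option autoImplicit false
set_option synthInstance.maxHeartbeats 400000

noncomputable section

namespace Fermat.Agent.INJ.Inst.Tower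

open ModularCurve Fermat.Agent.S28 Polynomial

/-- tower data: spanning over `ℚ`, independence over `k`. -/
def TowerDataK (k : Type) [Field k] (N : ℕ) : Prop :=
  ∃ (ι : Type) (_ : Fintype ι) (b : ι → LaurentSeries ℤ),
    (∀ i, b i ∈ ZJ N) ∧
    (∀ x ∈ Kf ℚ N, x ∈ Submodule.span (Ej ℚ N) (Set.range fun i => cZ ℚ (b i))) ∧
    LinearIndependent (Ej k N) (fun i => cZ k (b i))

theorem towerDataK_one (k : Type) [Field k] : TowerDataK k 1 := by
  refine ⟨Unit, inferInstance, fun _ => 1, fun _ => Subring.one_mem _, ?_, ?_⟩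
  · intro x hx
    have hle : Kf ℚ 1 ≤ Ej ℚ 1 := by
      rw [Kf, modularFunctionFieldFullC, IntermediateField.adjoin_le_iff]
      rintro _ ⟨d, hd, hd1, rfl⟩
      obtain rfl : d = 1 := Nat.dvd_one.mp hd1
      refine IntermediateField.subset_adjoin _ _ ?_
      rw [Set.mem_singleton_iff, jd, Vq_eq]
    have h1 : (1 : LaurentSeries ℚ) ∈
        Submodule.span (Ej ℚ 1) (Set.range fun _ : Unit => cZ ℚ (1 : LaurentSeries ℤ)) :=
      Submodule.subset_span ⟨(), map_one _⟩
    have h2 := Submodule.smul_mem _ (⟨x, hle hx⟩ : Ej ℚ 1) h1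
    have h3 : (⟨x, hle hx⟩ : Ej ℚ 1) • (1 : LaurentSeries ℚ) = x := by
      rw [IntermediateField.smul_def, smul_eq_mul, mul_one]
    rwa [h3] at h2
  · rw [linearIndependent_unique_iff]
    simp

theorem towerDataK (k : Type) [Field k] [IsAlgClosed k] (N : ℕ) :
    0 < N → (N : k) ≠ 0 → TowerDataK k N := by
  induction N using induction_on_primes with
  | zero => intro h; exact absurd h (lt_irrefl 0)
  | one => intro _ _; exact towerDataK_one k
  | prime_mul p M hp ih =>
    intro hN hk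
    rw [mul_comm p M] at hN ⊢
    have hM : 0 < M := Nat.pos_of_mul_pos_right hN
    have hkM : (M : k) ≠ 0 := by
      intro h
      apply hk
      rw [Nat.cast_mul, h, mul_zero]
    obtain ⟨ι, hι, b, hb1, hb2, hb3⟩ := ih hM hkM
    refine ⟨Fin (stepDeg p M) × ι, inferInstance, nextFam p M b,
      tower_nextFam_mem_ZJ hp.ne_zero hM hb1, ?_, ?_⟩
    · have h := wp8 wp5 p M hp hM (fun r hr _ => FN7.hasModPoly ℚ hr) ι (fun i => cZ ℚ (b i)) hb2
      have he : (fun x => cZ ℚ (nextFam p M b x)) = nextFam p M (fun i => cZ ℚ (b i)) :=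
        funext fun x => tower_coeffMap_nextFam _ p M b x
      rw [he]
      exact h
    · have h := wp7 (wp6 wp4 wp5) k p M hp hM hk (fun r hr _ => FN7.hasModPoly k hr)
        (FN7.hasUnitPoly k hp) ι (fun i => cZ k (b i))
        (fun i => tower_cZ_mem_Kf _ hM (hb1 i)) hb3
      have he : (fun x => cZ k (nextFam p M b x)) = nextFam p M (fun i => cZ k (b i)) :=
        funext fun x => tower_coeffMap_nextFam _ p M b x
      rw [he]
      exact h

/-! ### Spanning over `ℚ̄` -/

/-- `ℚ̄`. -/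
abbrev Qb : Type := AlgebraicClosure ℚ

theorem cZ_eq_coeffEmb (x : LaurentSeries ℤ) : cZ Qb x = coeffEmb Qb (cZ ℚ x) := by
  rw [coeffEmb, coeffMap_coeffMap]
  exact coeffMap_congr (RingHom.ext_int _ _) x

theorem coeffEmb_mem_Ej (N : ℕ) {x : LaurentSeries ℚ} (hx : x ∈ Ej ℚ N) :
    coeffEmb Qb x ∈ Ej Qb N := by
  let T : IntermediateField ℚ (LaurentSeries ℚ) :=
    ((Ej Qb N).toSubfield.comap (coeffEmb Qb)).toIntermediateField (fun r => by
      rw [eq_ratCast]
      exact SubfieldClass.ratCast_mem _ r)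
  have hle : Ej ℚ N ≤ T := by
    rw [Ej, IntermediateField.adjoin_simple_le_iff]
    show coeffEmb Qb (jd ℚ N) ∈ Ej Qb N
    rw [coeffEmb, tower_coeffMap_jd]
    exact IntermediateField.mem_adjoin_simple_self _ _
  exact hle hx

section Span

variable {N : ℕ} {ι : Type} (b : ι → LaurentSeries ℤ)

/-- the span over `ℚ̄(j(q^N))`. -/
abbrev SQ (N : ℕ) {ι : Type} (b : ι → LaurentSeries ℤ) : Submodule (Ej Qb N) (LaurentSeries Qb) :=
  Submodule.span (Ej Qb N) (Set.range fun i => cZ Qb (b i))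

theorem coeffEmb_mem_SQ {x : LaurentSeries ℚ}
    (hx : x ∈ Submodule.span (Ej ℚ N) (Set.range fun i => cZ ℚ (b i))) :
    coeffEmb Qb x ∈ SQ N b := by
  induction hx using Submodule.span_induction with
  | mem x hx =>
    obtain ⟨i, rfl⟩ := hx
    exact Submodule.subset_span ⟨i, cZ_eq_coeffEmb _⟩
  | zero => rw [map_zero]; exact Submodule.zero_mem _
  | add x y _ _ hx hy => rw [map_add]; exact Submodule.add_mem _ hx hy
  | smul r x _ hx =>
    have h : coeffEmb Qb (r • x) = (⟨coeffEmb Qb r, coeffEmb_mem_Ej N r.2⟩ : Ej Qb N) •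
        coeffEmb Qb x := by
      rw [IntermediateField.smul_def, IntermediateField.smul_def, smul_eq_mul, smul_eq_mul, map_mul]
    rw [h]
    exact Submodule.smul_mem _ _ hx

variable (hspan : ∀ x ∈ Kf ℚ N, x ∈ Submodule.span (Ej ℚ N) (Set.range fun i => cZ ℚ (b i)))
include hspan

theorem coeffEmb_mem_SQ_of_mem_Kf {x : LaurentSeries ℚ} (hx : x ∈ Kf ℚ N) :
    coeffEmb Qb x ∈ SQ N b := coeffEmb_mem_SQ b (hspan x hx)

theorem one_mem_SQ : (1 : LaurentSeries Qb) ∈ SQ N b := by
  have := coeffEmb_mem_SQ_of_mem_Kf b hspan (one_mem (Kf ℚ N))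
  rwa [map_one] at this

theorem mul_mem_SQ (hN : 0 < N) (hb : ∀ i, b i ∈ ZJ N) {x y : LaurentSeries Qb}
    (hx : x ∈ SQ N b) (hy : y ∈ SQ N b) : x * y ∈ SQ N b := by
  induction hx using Submodule.span_induction with
  | mem x hx =>
    obtain ⟨i, rfl⟩ := hx
    induction hy using Submodule.span_induction with
    | mem y hy =>
      obtain ⟨j, rfl⟩ := hy
      simp only []
      rw [← map_mul, cZ_eq_coeffEmb]
      exact coeffEmb_mem_SQ_of_mem_Kf b hspan
        (tower_cZ_mem_Kf ℚ hN (Subring.mul_mem _ (hb i) (hb j)))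
    | zero => rw [mul_zero]; exact Submodule.zero_mem _
    | add y z _ _ hy hz => rw [mul_add]; exact Submodule.add_mem _ hy hz
    | smul r y _ hy =>
      rw [mul_smul_comm]
      exact Submodule.smul_mem _ _ hy
  | zero => rw [zero_mul]; exact Submodule.zero_mem _
  | add x z _ _ hx hz => rw [add_mul]; exact Submodule.add_mem _ hx hz
  | smul r x _ hx =>
    rw [smul_mul_assoc]
    exact Submodule.smul_mem _ _ hx

theorem inv_mem_SQ [Finite ι] (hN : 0 < N) (hb : ∀ i, b i ∈ ZJ N) {x : LaurentSeries Qb}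
    (hx : x ∈ SQ N b) : x⁻¹ ∈ SQ N b := by
  rcases eq_or_ne x 0 with rfl | hx0
  · rw [inv_zero]; exact Submodule.zero_mem _
  have hfd : FiniteDimensional (Ej Qb N) (SQ N b) :=
    FiniteDimensional.span_of_finite _ (Set.finite_range _)
  let f : SQ N b →ₗ[Ej Qb N] SQ N b :=
    { toFun := fun y => ⟨x * y, mul_mem_SQ b hspan hN hb hx y.2⟩
      map_add' := fun y z => Subtype.ext (mul_add _ _ _)
      map_smul' := fun r y => Subtype.ext (mul_smul_comm _ _ _) }
  have hinj : Function.Injective f := by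
    intro y z hyz
    have h1 : x * (y : LaurentSeries Qb) = x * z := congrArg Subtype.val hyz
    exact Subtype.ext (mul_left_cancel₀ hx0 h1)
  obtain ⟨y, hy⟩ := (LinearMap.injective_iff_surjective.1 hinj) ⟨1, one_mem_SQ b hspan⟩
  have h1 : x * (y : LaurentSeries Qb) = 1 := congrArg Subtype.val hy
  rw [inv_eq_of_mul_eq_one_right h1]
  exact y.2

/-- **Spanning over `ℚ̄`.** -/
theorem mem_SQ_of_mem_bar [Finite ι] (hN : 0 < N) (hb : ∀ i, b i ∈ ZJ N) {x : LaurentSeries Qb}
    (hx : x ∈ modularFunctionFieldBar N) : x ∈ SQ N b := by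
  rw [mem_laurentBaseChange_iff] at hx
  induction hx using Subfield.closure_induction with
  | mem y hy =>
      rcases hy with ⟨a, rfl⟩ | ⟨z, hz, rfl⟩
      · have h := Submodule.smul_mem _ (algebraMap Qb (Ej Qb N) a) (one_mem_SQ b hspan)
        rwa [IntermediateField.smul_def, smul_eq_mul, mul_one] at h
      · exact coeffEmb_mem_SQ_of_mem_Kf b hspan hz
  | one => exact one_mem_SQ b hspan
  | add x y _ _ hx hy => exact Submodule.add_mem _ hx hy
  | neg x _ hx => exact Submodule.neg_mem _ hx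
  | inv x _ hx => exact inv_mem_SQ b hspan hN hb hx
  | mul x y _ _ hx hy => exact mul_mem_SQ b hspan hN hb hx hy

end Span

/-- **[T]** the tower for a general algebraically closed field `k` in which `N ≠ 0`. -/
theorem tower (N : ℕ) [NeZero N] (k : Type) [Field k] [IsAlgClosed k] (hk : (N : k) ≠ 0) :
    ∃ (ι : Type) (_ : Fintype ι) (b : ι → LaurentSeries ℤ),
      (∀ i, b i ∈ ZJ N) ∧
      (∀ x ∈ modularFunctionFieldBar N,
        x ∈ Submodule.span (Ej Qb N) (Set.range fun i => cZ Qb (b i))) ∧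
      LinearIndependent (Ej k N) (fun i => cZ k (b i)) := by
  have hN : 0 < N := Nat.pos_of_ne_zero (NeZero.ne N)
  obtain ⟨ι, hι, b, hb1, hb2, hb3⟩ := towerDataK k N hN hk
  exact ⟨ι, hι, b, hb1, fun x hx => mem_SQ_of_mem_bar b hb2 hN hb1 hx, hb3⟩

end Fermat.Agent.INJ.Inst.Tower
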