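import Fermat.Agent.INJ.Inst.Interface
import Fermat.Agent.INJ.Interface2
import Fermat.Agent.INJ.Inst.Tower
import Fermat.Agent.S18.Glue28
import Fermat.Agent.S24.DegreeBound
import Fermat.Agent.S24.DegPrincipalCore

/-!
# INJ / Inst / [CS] : `s = j(q^N)` is a good coordinate
-/

set_option autoImplicit false
set_option synthInstance.maxHeartbeats 400000

noncomputable section

namespace Fermat.Agent.INJ.Inst

open AlgebraicCurve ModularCurve IntermediateField Polynomial

theorem stmt_Tower : Stmt_Tower := fun N _ k _ _ hk => Tower.tower N k hk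

namespace CS

/-- `N ≠ 0` in the residue field. -/
theorem natCast_ne_zero {ℓ : ℕ} (A : ValuationSubring Qb) (hA : A.LiesOverPrime ℓ) {N : ℕ}
    (hN : Nat.Coprime N ℓ) : (N : kA A) ≠ 0 := by
  have hl : (ℓ : kA A) = 0 := by
    obtain ⟨ha, hm⟩ := ValuationSubring.mem_nonunits_iff_exists_mem_maximalIdeal.1 hA
    have h1 : IsLocalRing.residue A ⟨(ℓ : Qb), ha⟩ = 0 := (IsLocalRing.residue_eq_zero_iff _).2 hm
    have h2 : (⟨(ℓ : Qb), ha⟩ : A) = (ℓ : A) := Subtype.ext (by simp)
    rw [h2, map_natCast] at h1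
    exact h1
  intro h0
  have hb : (N : ℤ) * Nat.gcdA N ℓ + (ℓ : ℤ) * Nat.gcdB N ℓ = 1 := by
    have := Nat.gcd_eq_gcd_ab N ℓ
    rw [hN.gcd_eq_one] at this
    exact_mod_cast this.symm
  have h1 := congrArg (Int.cast : ℤ → kA A) hb
  push_cast at h1
  rw [h0, hl, zero_mul, zero_mul, add_zero] at h1
  exact zero_ne_one h1

/-- transfer of linear independence from the ambient field to an intermediate field. -/
theorem linearIndependent_of_ambient {k M : Type*} [Field k] [Field M] [Algebra k M]
    (L : IntermediateField k M) (x : L) {ι : Type*} [Fintype ι] (v : ι → L)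
    (h : LinearIndependent k⟮(x : M)⟯ (fun i => (v i : M))) : LinearIndependent k⟮x⟯ v := by
  rw [Fintype.linearIndependent_iff] at h ⊢
  intro g hg i
  have hmem : ∀ c : k⟮x⟯, ((c : L) : M) ∈ k⟮(x : M)⟯ := by
    intro c
    have h1 : (k⟮x⟯).map L.val = k⟮(x : M)⟯ := by
      rw [IntermediateField.adjoin_map, Set.image_singleton]
      rfl
    rw [← h1]
    exact ⟨c, c.2, rfl⟩
  have h2 := h (fun i => ⟨((g i : L) : M), hmem (g i)⟩) (by
    have h3 := congrArg (fun z : L => (z : M)) hg
    simp only [IntermediateField.coe_sum, IntermediateField.coe_zero] at h3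
    rw [← h3]
    rfl) i
  have h4 : ((g i : L) : M) = 0 := congrArg Subtype.val h2
  exact Subtype.ext (Subtype.ext h4)

/-- upper bound for the degree from a spanning family in the ambient field. -/
theorem finrank_le_card_of_span {K M : Type*} [Field K] [Field M] [Algebra K M]
    (F : IntermediateField K M) (x : F) {ι : Type*} [Fintype ι] (B : ι → M)
    (h : ∀ y ∈ F, y ∈ Submodule.span K⟮(x : M)⟯ (Set.range B)) :
    Module.finrank K⟮x⟯ F ≤ Fintype.card ι := by
  have hle : K⟮(x : M)⟯ ≤ F := by
    rw [adjoin_simple_le_iff]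
    exact x.2
  have h1 := relfinrank_map_map (A := K⟮x⟯) (B := ⊤) F.val
  rw [relfinrank_top_right, adjoin_map, Set.image_singleton, ← AlgHom.fieldRange_eq_map,
    fieldRange_val] at h1
  rw [← h1]
  change relfinrank K⟮(x : M)⟯ F ≤ _
  rw [relfinrank_eq_finrank_of_le hle]
  have h2 : (extendScalars hle).toSubalgebra.toSubmodule ≤
      Submodule.span K⟮(x : M)⟯ (Set.range B) := fun y hy => h y hy
  have hfd : FiniteDimensional K⟮(x : M)⟯ (Submodule.span K⟮(x : M)⟯ (Set.range B)) :=
    FiniteDimensional.span_of_finite _ (Set.finite_range _)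
  calc Module.finrank K⟮(x : M)⟯ (extendScalars hle)
      = Module.finrank K⟮(x : M)⟯ (extendScalars hle).toSubalgebra.toSubmodule := rfl
    _ ≤ Module.finrank K⟮(x : M)⟯ (Submodule.span K⟮(x : M)⟯ (Set.range B)) :=
        Submodule.finrank_mono h2
    _ ≤ Fintype.card ι := finrank_range_le_card B

theorem transcendental_jd (k : Type) [Field k] (N : ℕ) [NeZero N] :
    Transcendental k (S28.jd k N) := by
  intro h
  rw [S28.jd, S28.Vq_eq, ← qExpandAlgHomC_apply,
    isAlgebraic_algHom_iff _ (qExpandAlgHomC k N).toRingHom.injective] at h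
  exact S28.Base.transcendental_j h

theorem cZ_mem_bar {N : ℕ} [NeZero N] {z : LaurentSeries ℤ} (hz : z ∈ S28.ZJ N) :
    S28.cZ Qb z ∈ modularFunctionFieldBar N := by
  rw [Tower.cZ_eq_coeffEmb]
  exact coeffEmb_mem_laurentBaseChange Qb
    (S28.tower_cZ_mem_Kf ℚ (Nat.pos_of_ne_zero (NeZero.ne N)) hz)

end CS

set_option maxHeartbeats 1000000 in
open CS in
/-- **[CS]**. -/
theorem stmt_ChartS (hSep : Stmt_Sep) (hFin : Stmt_ResFinite) : Stmt_ChartS := by
  intro N _ ℓ _ hℓN A hA L D hG s hs
  have hAC : IsAlgClosed (kA A) := S18G.isAlgClosed_kA A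
  have hNk : (N : kA A) ≠ 0 := natCast_ne_zero A hA
    ((Nat.Prime.coprime_iff_not_dvd Fact.out).2 hℓN).symm
  -- `s` is the image of an integral series
  have hsA : coeffMap A.subtype (S28.jd A N) = (s : LaurentSeries Qb) := by
    rw [S28.tower_coeffMap_jd, hs]
  have hsmem : coeffMap A.subtype (S28.jd A N) ∈ modularFunctionFieldBar N := hsA ▸ s.2
  have hs' : (⟨_, hsmem⟩ : FL N) = s := Subtype.ext hsA
  obtain ⟨hsO, hsrd⟩ := hG.rd (S28.jd A N) hsmem
  rw [hs', S28.tower_coeffMap_jd] at hsrd
  rw [hs'] at hsO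
  have htr : Transcendental (kA A) (D.rd s) := by
    intro h
    have h1 := h.algHom L.val
    change IsAlgebraic (kA A) ((D.rd s : L) : LaurentSeries (kA A)) at h1
    rw [hsrd] at h1
    exact transcendental_jd (kA A) N h1
  have htrs : Transcendental Qb s := by
    intro h
    have h1 := h.algHom (modularFunctionFieldBar N).val
    change IsAlgebraic Qb (s : LaurentSeries Qb) at h1
    rw [hs] at h1
    exact transcendental_jd Qb N h1
  have hfin : FiniteDimensional Qb⟮s⟯ (FL N) := by
    have := (S24.finrank_FF_le N).1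
    have hj : Transcendental Qb (S24.jF N) := by
      intro h
      have h1 := h.algHom (modularFunctionFieldBar N).val
      change IsAlgebraic Qb (S24.jBarSeries 1) at h1
      have h2 : S24.jBarSeries 1 = S28.jd Qb 1 := by
        rw [S24.jBarSeries, coeffEmb, coeffMap_qExpand, ← jqModC_rat, coeffMap_jqModC, S28.jd,
          S28.Vq_eq]
      rw [h2] at h1
      exact transcendental_jd Qb 1 h1
    exact S24.finiteDimensional_adjoin_simple_of_transcendental (S24.jF N) hj s htrs
  have hresfin : FiniteDimensional (kA A)⟮D.rd s⟯ L := hFin _ _ _ _ D s hsO htr hfin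
  obtain ⟨ι, hι, b, hb1, hb2, hb3⟩ := Tower.tower N (kA A) hNk
  refine ⟨hsO, htr, hfin, ?_, ?_⟩
  · -- the degree
    have hcard : Module.finrank Qb⟮s⟯ (FL N) ≤ Fintype.card ι := by
      refine finrank_le_card_of_span (modularFunctionFieldBar N) s (fun i => S28.cZ Qb (b i)) ?_
      intro y hy
      have := hb2 y hy
      rw [S28.Ej, ← hs] at this
      exact this
    -- the reductions
    have hy : ∀ i, coeffMap A.subtype (S28.cZ A (b i)) = S28.cZ Qb (b i) := fun i => by
      rw [coeffMap_coeffMap]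
      exact coeffMap_congr (RingHom.ext_int _ _) _
    have hmem : ∀ i, coeffMap A.subtype (S28.cZ A (b i)) ∈ modularFunctionFieldBar N := fun i => by
      rw [hy]
      exact cZ_mem_bar (hb1 i)
    let e : ι → L := fun i => D.rd (⟨_, hmem i⟩ : FL N)
    have he : ∀ i, ((e i : L) : LaurentSeries (kA A)) = S28.cZ (kA A) (b i) := fun i => by
      rw [(hG.rd _ (hmem i)).2, coeffMap_coeffMap]
      exact coeffMap_congr (RingHom.ext_int _ _) _
    have hli : LinearIndependent (kA A)⟮D.rd s⟯ e := by
      apply linearIndependent_of_ambient L (D.rd s) e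
      have hfun : (fun i => ((e i : L) : LaurentSeries (kA A))) =
          fun i => S28.cZ (kA A) (b i) := funext he
      rw [hfun, hsrd]
      rw [S28.Ej] at hb3
      exact hb3
    have hemb : Fintype.card (Fin (Module.finrank Qb⟮s⟯ (FL N))) ≤ Fintype.card ι := by
      rwa [Fintype.card_fin]
    obtain ⟨f⟩ := Function.Embedding.nonempty_of_card_le hemb
    exact ⟨e ∘ f, hli.comp f f.injective⟩
  · -- separability
    refine hSep (kA A) L (D.rd s) ⟨-(N : ℤ), ?_⟩ inferInstance
    rw [hsrd]
    have h1 : (S28.jd (kA A) N).coeff (-(N : ℤ)) = 1 := by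
      have h2 : -(N : ℤ) = (N : ℤ) * (-1) := by ring
      rw [S28.jd, h2, S28.L1.Vq_coeff_mul N (NeZero.ne N), coeff_jqModC_neg_one]
    rw [h1, mul_one]
    push_cast
    exact neg_ne_zero.2 hNk

end Fermat.Agent.INJ.Inst
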