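import Fermat.Agent.INJ.Inst.Basic

/-!
# INJ / Inst : `t = x_M(q^(N/M))` is a good coordinate (from `Chart D s`, `s = j(q^N)`)
-/

set_option autoImplicit false
set_option linter.style.haveILetI false
set_option linter.unusedSectionVars false
set_option synthInstance.maxHeartbeats 400000

noncomputable section

namespace Fermat.Agent.INJ.Inst

open AlgebraicCurve ModularCurve IntermediateField Polynomial Fermat.Agent.KL.Haupt
open Fermat.Agent

theorem CT_natDegree {K : Type} [Field K] (a : K) : (X * (X - C a) ^ 3 : K[X]).natDegree = 4 := by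
  rw [natDegree_mul X_ne_zero (pow_ne_zero _ (X_sub_C_ne_zero a)), natDegree_X, natDegree_pow,
    natDegree_X_sub_C]

/-- abstract form. -/
theorem CT_aux (hCT : INJ.Stmt_ChartTower) (hDL : Stmt_DegLemma)
    {K F k Fb : Type} [Field K] [Field F] [Algebra K F] [Field k] [Field Fb] [Algebra k Fb]
    (D : RedData K F k Fb) (s t : F) (hs : Chart D s) (ht : t ∈ D.O) (htr : Transcendental K t)
    (htrb : Transcendental k (D.rd t))
    (P Q : K[X]) (hcop : IsCoprime P Q) (hdeg : Q.natDegree < P.natDegree) (hQ : Q ≠ 0)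
    (hrel : s * aeval t Q = aeval t P)
    (Pb Qb : k[X]) (hPb : Pb.Monic) (hPbd : Pb.natDegree = P.natDegree)
    (hQbd : Qb.natDegree < Pb.natDegree) (hQb : Qb ≠ 0)
    (hrelb : D.rd s * aeval (D.rd t) Qb = aeval (D.rd t) Pb) : Chart D t := by
  have hQt : aeval t Q ≠ 0 := fun h => hQ ((transcendental_iff.mp htr) Q h)
  have hQbt : aeval (D.rd t) Qb ≠ 0 := fun h => hQb ((transcendental_iff.mp htrb) Qb h)
  have haev : ∀ R : K[X], aeval t R ∈ K⟮t⟯ := fun R =>
    (algebra_adjoin_le_adjoin K {t}) (by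
      rw [Algebra.adjoin_singleton_eq_range_aeval]; exact ⟨R, rfl⟩)
  have haevb : ∀ R : k[X], aeval (D.rd t) R ∈ k⟮D.rd t⟯ := fun R =>
    (algebra_adjoin_le_adjoin k {D.rd t}) (by
      rw [Algebra.adjoin_singleton_eq_range_aeval]; exact ⟨R, rfl⟩)
  have hsmem : s ∈ K⟮t⟯ := by
    have : s = aeval t P / aeval t Q := by rw [← hrel, mul_div_cancel_right₀ _ hQt]
    rw [this]
    exact div_mem (haev P) (haev Q)
  have hsbmem : D.rd s ∈ k⟮D.rd t⟯ := by
    have : D.rd s = aeval (D.rd t) Pb / aeval (D.rd t) Qb := by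
      rw [← hrelb, mul_div_cancel_right₀ _ hQbt]
    rw [this]
    exact div_mem (haevb Pb) (haevb Qb)
  refine hCT K F k Fb D s t hs ht hsmem hsbmem P.natDegree
    (hDL K F s t P Q htr hcop hdeg hrel) ?_
  set g : k⟮D.rd s⟯ := AdjoinSimple.gen k (D.rd s) with hg
  set P1 : (k⟮D.rd s⟯)[X] := Pb.map (algebraMap k k⟮D.rd s⟯) with hP1
  set Q1 : (k⟮D.rd s⟯)[X] := C g * Qb.map (algebraMap k k⟮D.rd s⟯) with hQ1
  have hP1m : P1.Monic := hPb.map _
  have hP1d : P1.natDegree = Pb.natDegree := hPb.natDegree_map _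
  have hQ1d : Q1.natDegree < P1.natDegree := by
    rw [hP1d]
    refine lt_of_le_of_lt (natDegree_C_mul_le _ _) ?_
    exact lt_of_le_of_lt natDegree_map_le hQbd
  have hlt : Q1.degree < P1.degree := degree_lt_degree hQ1d
  refine ⟨P1 - Q1, ?_, ?_, ?_⟩
  · intro h
    have h2 := degree_sub_eq_left_of_degree_lt hlt
    rw [h, degree_zero] at h2
    exact hP1m.ne_zero (degree_eq_bot.mp h2.symm)
  · rw [natDegree_sub_eq_left_of_natDegree_lt hQ1d, hP1d, hPbd]
  · rw [map_sub, hP1, hQ1, map_mul, aeval_C, aeval_map_algebraMap, aeval_map_algebraMap, hg,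
      AdjoinSimple.algebraMap_gen, hrelb, sub_self]

section Inst

variable {M N : ℕ} [NeZero N] {A : ValuationSubring Qb}
  {L : IntermediateField (kA A) (LaurentSeries (kA A))} {D : RedData Qb (FL N) (kA A) L}

/-- an element of `FL N` whose series comes from `R((q))` for all `R`. -/
theorem IsGauss.mem_rd (hD : IsGauss N A L D) (y : LaurentSeries A) (x : FL N)
    (hx : (x : LaurentSeries Qb) = coeffMap A.subtype y) :
    x ∈ D.O ∧ ((D.rd x : L) : LaurentSeries (kA A)) = coeffMap (IsLocalRing.residue A) y := by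
  have h : coeffMap A.subtype y ∈ modularFunctionFieldBar N := hx ▸ x.2
  have e : x = ⟨_, h⟩ := Subtype.ext hx
  rw [e]
  exact hD.rd y h

theorem IsGauss.t_mem_rd (hD : IsGauss N A L D) (t : FL N)
    (ht : (t : LaurentSeries Qb) = tS M N Qb) :
    t ∈ D.O ∧ ((D.rd t : L) : LaurentSeries (kA A)) = tS M N (kA A) := by
  have := hD.mem_rd (tS M N A) t (by rw [ht, coeffMap_tS])
  rwa [coeffMap_tS] at this

theorem IsGauss.s_mem_rd (hD : IsGauss N A L D) (d : ℕ) (s : FL N)
    (hs : (s : LaurentSeries Qb) = S28.jd Qb d) :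
    s ∈ D.O ∧ ((D.rd s : L) : LaurentSeries (kA A)) = S28.jd (kA A) d := by
  have := hD.mem_rd (S28.jd A d) s (by rw [hs, coeffMap_jd])
  rwa [coeffMap_jd] at this

theorem transcendental_of_coe {K : Type} [Field K] {E : IntermediateField K (LaurentSeries K)}
    {x : E} (h : Transcendental K (x : LaurentSeries K)) : Transcendental K x := by
  intro halg
  apply h
  have := halg.algHom E.val
  exact this

end Inst

theorem stmt_ChartT (hCS : Stmt_ChartS) (hCT : INJ.Stmt_ChartTower) (hDL : Stmt_DegLemma) :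
    Stmt_ChartT := by
  intro M N _ ℓ _ hM hMN hℓ A hA L D hD t ht
  have hN : N ≠ 0 := NeZero.ne N
  set s : FL N := ⟨S28.jd Qb N, jd_mem_bar hN dvd_rfl⟩ with hs
  have hCs : Chart D s := hCS N ℓ hℓ A hA L D hD s rfl
  obtain ⟨htO, htb⟩ := hD.t_mem_rd t ht
  obtain ⟨-, hsb⟩ := hD.s_mem_rd N s rfl
  have htr : Transcendental Qb t := transcendental_of_coe (by rw [ht]; exact transcendental_tS Qb hN hMN)
  have htrb : Transcendental (kA A) (D.rd t) :=
    transcendental_of_coe (by rw [htb]; exact transcendental_tS _ hN hMN)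
  rcases hM with rfl | rfl
  · refine CT_aux hCT hDL D s t hCs htO htr htrb ((X - C 48) ^ 3) (X - C 64) ?_ ?_
      (X_sub_C_ne_zero _) ?_ ((X - C 48) ^ 3) (X - C 64) ((monic_X_sub_C _).pow 3) ?_ ?_
      (X_sub_C_ne_zero _) ?_
    · apply IsCoprime.pow_left
      apply isCoprime_X_sub_C_of_isUnit_sub
      norm_num
    · rw [natDegree_pow, natDegree_X_sub_C, natDegree_X_sub_C]; norm_num
    · apply Subtype.ext
      have := rel_tS2 Qb hN hMN
      simp only [map_sub, map_pow, aeval_X, map_ofNat]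
      push_cast
      rw [ht]
      exact this
    · rw [natDegree_pow, natDegree_X_sub_C, natDegree_pow, natDegree_X_sub_C]
    · rw [natDegree_pow, natDegree_X_sub_C, natDegree_X_sub_C]; norm_num
    · apply Subtype.ext
      have := rel_tS2 (kA A) hN hMN
      simp only [map_sub, map_pow, aeval_X, map_ofNat]
      push_cast
      rw [htb, hsb]
      exact this
  · refine CT_aux hCT hDL D s t hCs htO htr htrb (X * (X - C 24) ^ 3) (X - C 27) ?_ ?_
      (X_sub_C_ne_zero _) ?_ (X * (X - C 24) ^ 3) (X - C 27)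
      (monic_X.mul ((monic_X_sub_C _).pow 3)) ?_ ?_ (X_sub_C_ne_zero _) ?_
    · apply IsCoprime.mul_left
      · have := isCoprime_X_sub_C_of_isUnit_sub (R := Qb) (a := 0) (b := 27) (by norm_num)
        simpa using this
      · apply IsCoprime.pow_left
        apply isCoprime_X_sub_C_of_isUnit_sub
        norm_num
    · rw [CT_natDegree, natDegree_X_sub_C]; norm_num
    · apply Subtype.ext
      have := rel_tS3 Qb hN hMN
      simp only [map_sub, map_pow, map_mul, aeval_X, map_ofNat]
      push_cast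
      rw [ht]
      exact this
    · rw [CT_natDegree, CT_natDegree]
    · rw [CT_natDegree, natDegree_X_sub_C]; norm_num
    · apply Subtype.ext
      have := rel_tS3 (kA A) hN hMN
      simp only [map_sub, map_pow, map_mul, aeval_X, map_ofNat]
      push_cast
      rw [htb, hsb]
      exact this

end Fermat.Agent.INJ.Inst

end
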