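import Fermat.Agent.INJ.Inst.ChartS
import Fermat.Agent.INJ.P17

/-! Adapter: `Stmt_SepL` (P16) gives `Stmt_Sep`, hence `Stmt_ChartS` from P16 alone. -/

namespace Fermat.Agent.INJ.Inst

open IntermediateField

theorem stmt_Sep_of_SepL (h : Stmt_SepL) : Stmt_Sep := by
  intro k _ _ L s hs halg
  obtain ⟨n, hn⟩ := hs
  have hn1 : (n : k) ≠ 0 := left_ne_zero_of_mul hn
  have hn2 : (s : LaurentSeries k).coeff n ≠ 0 := right_ne_zero_of_mul hn
  obtain ⟨p, hp⟩ := CharP.exists k
  rcases CharP.char_is_prime_or_zero k p with hpp | hp0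
  · have : Fact p.Prime := ⟨hpp⟩
    exact h k p L s ⟨n, hn1, hn2⟩ halg
  · subst hp0
    have : CharZero k := CharP.charP_to_charZero k
    have : CharZero L := charZero_of_injective_algebraMap (algebraMap k L).injective
    have : CharZero k⟮s⟯ := inferInstance
    exact Algebra.IsAlgebraic.isSeparable_of_perfectField

theorem stmt_ChartS_of_SepL (h : Stmt_SepL) : Stmt_ChartS :=
  stmt_ChartS (stmt_Sep_of_SepL h) stmt_ResFinite

end Fermat.Agent.INJ.Inst
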