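import Mathlib

/-!
# INJ / instantiation: valuation rings of algebraic extensions of `ℚ` over a prime `ℓ`

Pure Mathlib.  `A` is a valuation subring of a field `L` algebraic over `ℚ`, with `ℓ` a nonunit.
* `Sat.exists_pow_eq` : for `w ≠ 0` killed by a nonzero rational polynomial of degree `≤ n`,
  `v w ^ n! = v ℓ ^ S` for some integer `S`;
* `Sat.exists_max` : a family of elements of a finitely generated `ℤ`-submodule of `L`, not all zero,
  contains an element dividing all the others (in `A`);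
* `Sat.arch` : `A` has rank one.
-/

namespace Fermat.Agent.INJ.Inst.Sat

open Polynomial

variable {L : Type*} [Field L] (A : ValuationSubring L)

theorem val_nat_le (n : ℕ) : A.valuation (n : L) ≤ 1 :=
  (A.valuation_le_one_iff _).2 (natCast_mem A n)

theorem val_int_le (n : ℤ) : A.valuation (n : L) ≤ 1 :=
  (A.valuation_le_one_iff _).2 (intCast_mem A n)

variable {A} {ℓ : ℕ}

theorem val_nat_eq_one (hℓ : ℓ.Prime) (hA : (ℓ : L) ∈ A.nonunits) (n : ℕ) (hn : ¬ ℓ ∣ n) :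
    A.valuation (n : L) = 1 := by
  have hv : A.valuation (ℓ : L) < 1 := (ValuationSubring.mem_nonunits_iff A).1 hA
  by_contra h
  have hlt : A.valuation (n : L) < 1 := lt_of_le_of_ne (val_nat_le A n) h
  have hcop : IsCoprime (n : ℤ) (ℓ : ℤ) := by
    rw [Nat.isCoprime_iff_coprime]
    exact ((Nat.Prime.coprime_iff_not_dvd hℓ).2 hn).symm
  obtain ⟨a, b, hab⟩ := hcop
  have h1 : (a : L) * (n : L) + (b : L) * (ℓ : L) = 1 := by exact_mod_cast congrArg (Int.cast : ℤ → L) hab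
  have h2 : A.valuation ((a : L) * (n : L) + (b : L) * (ℓ : L)) < 1 := by
    refine lt_of_le_of_lt (A.valuation.map_add _ _) (max_lt ?_ ?_)
    · rw [map_mul]
      exact lt_of_le_of_lt (mul_le_of_le_one_left zero_le (val_int_le A a)) hlt
    · rw [map_mul]
      exact lt_of_le_of_lt (mul_le_of_le_one_left zero_le (val_int_le A b)) hv
  rw [h1, map_one] at h2
  exact lt_irrefl _ h2

theorem val_nat (hℓ : ℓ.Prime) (hA : (ℓ : L) ∈ A.nonunits) (n : ℕ) (hn : n ≠ 0) :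
    ∃ s : ℕ, A.valuation (n : L) = A.valuation (ℓ : L) ^ s := by
  obtain ⟨e, n', hn', rfl⟩ := Nat.exists_eq_pow_mul_and_not_dvd hn ℓ hℓ.ne_one
  refine ⟨e, ?_⟩
  rw [Nat.cast_mul, Nat.cast_pow, map_mul, map_pow, val_nat_eq_one hℓ hA n' hn', mul_one]

theorem val_int (hℓ : ℓ.Prime) (hA : (ℓ : L) ∈ A.nonunits) (n : ℤ) (hn : n ≠ 0) :
    ∃ s : ℕ, A.valuation (n : L) = A.valuation (ℓ : L) ^ s := by
  obtain ⟨s, hs⟩ := val_nat hℓ hA n.natAbs (Int.natAbs_ne_zero.2 hn)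
  refine ⟨s, ?_⟩
  rw [← hs]
  rcases Int.natAbs_eq n with h | h
  · conv_lhs => rw [h]
    simp
  · conv_lhs => rw [h]
    simp

variable [CharZero L]

theorem val_ell_ne_zero (hℓ : ℓ.Prime) : A.valuation (ℓ : L) ≠ 0 := by
  rw [Valuation.ne_zero_iff]
  exact_mod_cast hℓ.ne_zero

theorem val_rat (hℓ : ℓ.Prime) (hA : (ℓ : L) ∈ A.nonunits) (r : ℚ) (hr : r ≠ 0) :
    ∃ s : ℤ, A.valuation (algebraMap ℚ L r) = A.valuation (ℓ : L) ^ s := by
  obtain ⟨s, hs⟩ := val_int hℓ hA r.num (Rat.num_ne_zero.2 hr)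
  obtain ⟨s', hs'⟩ := val_nat hℓ hA r.den r.den_ne_zero
  refine ⟨(s : ℤ) - s', ?_⟩
  have h1 : algebraMap ℚ L r = (r.num : L) / (r.den : L) := by
    conv_lhs => rw [← Rat.num_div_den r]
    simp
  rw [h1, map_div₀, hs, hs', zpow_sub₀ (val_ell_ne_zero hℓ), zpow_natCast, zpow_natCast]

/-- two terms of a vanishing sum have the same valuation. -/
theorem exists_pair {w : L} (hw : w ≠ 0) (p : ℚ[X]) (hp : p ≠ 0) (hpw : aeval w p = 0) :
    ∃ i ∈ p.support, ∃ j ∈ p.support, i < j ∧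
      A.valuation (algebraMap ℚ L (p.coeff i) * w ^ i) =
        A.valuation (algebraMap ℚ L (p.coeff j) * w ^ j) := by
  classical
  set f : ℕ → L := fun i => algebraMap ℚ L (p.coeff i) * w ^ i with hf
  have hsum : ∑ i ∈ p.support, f i = 0 := by
    rw [← hpw, aeval_def, eval₂_eq_sum, Polynomial.sum_def]
  obtain ⟨i0, hi0, hmax⟩ := Finset.exists_max_image p.support (fun i => A.valuation (f i))
    (nonempty_support_iff.2 hp)
  have hfi0 : f i0 ≠ 0 := by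
    refine mul_ne_zero ?_ (pow_ne_zero _ hw)
    rw [Ne, map_eq_zero]
    exact mem_support_iff.1 hi0
  by_contra hno
  push Not at hno
  have hlt : ∀ i ∈ p.support \ {i0}, A.valuation (f i) < A.valuation (f i0) := by
    intro i hi
    rw [Finset.mem_sdiff, Finset.mem_singleton] at hi
    refine lt_of_le_of_ne (hmax i hi.1) ?_
    rcases lt_or_gt_of_ne hi.2 with h | h
    · exact hno i hi.1 i0 hi0 h
    · exact (hno i0 hi0 i hi.1 h).symm
  have h1 := A.valuation.map_sum_eq_of_lt hi0 hlt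
  rw [hsum, map_zero] at h1
  exact (A.valuation.ne_zero_iff.2 hfi0) h1.symm

/-- `w` is a root of a nonzero rational polynomial of degree `≤ n`. -/
def Bdd (n : ℕ) (w : L) : Prop := ∃ p : ℚ[X], p ≠ 0 ∧ p.natDegree ≤ n ∧ aeval w p = 0

theorem exists_pow_eq_aux (hℓ : ℓ.Prime) (hA : (ℓ : L) ∈ A.nonunits) {n : ℕ} {w : L} (hw : w ≠ 0)
    (hb : Bdd n w) : ∃ j : ℕ, 0 < j ∧ j ≤ n ∧ ∃ s : ℤ, A.valuation w ^ j = A.valuation (ℓ : L) ^ s := by
  obtain ⟨p, hp, hdeg, hpw⟩ := hb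
  obtain ⟨i, hi, j, hj, hij, he⟩ := exists_pair (A := A) hw p hp hpw
  obtain ⟨si, hsi⟩ := val_rat hℓ hA (p.coeff i) (mem_support_iff.1 hi)
  obtain ⟨sj, hsj⟩ := val_rat hℓ hA (p.coeff j) (mem_support_iff.1 hj)
  refine ⟨j - i, Nat.sub_pos_of_lt hij, (Nat.sub_le _ _).trans ((le_natDegree_of_mem_supp j hj).trans hdeg),
    si - sj, ?_⟩
  have hπ := val_ell_ne_zero (A := A) (L := L) hℓ
  have hvw : A.valuation w ≠ 0 := A.valuation.ne_zero_iff.2 hw
  rw [map_mul, map_mul, map_pow, map_pow, hsi, hsj] at he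
  have hj' : j = (j - i) + i := (Nat.sub_add_cancel hij.le).symm
  rw [hj', pow_add, ← mul_assoc] at he
  have h2 := mul_right_cancel₀ (pow_ne_zero i hvw) he
  rw [zpow_sub₀ hπ, h2]
  field_simp

theorem exists_pow_eq (hℓ : ℓ.Prime) (hA : (ℓ : L) ∈ A.nonunits) {n : ℕ} {w : L} (hw : w ≠ 0)
    (hb : Bdd n w) : ∃ s : ℤ, A.valuation w ^ n.factorial = A.valuation (ℓ : L) ^ s := by
  obtain ⟨j, hj0, hjn, s, hs⟩ := exists_pow_eq_aux hℓ hA hw hb
  obtain ⟨e, he⟩ := Nat.dvd_factorial hj0 hjn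
  refine ⟨s * e, ?_⟩
  rw [he, pow_mul, hs, zpow_mul, zpow_natCast]

theorem exists_max_of_bdd (hℓ : ℓ.Prime) (hA : (ℓ : L) ∈ A.nonunits) (n : ℕ) {ι : Type*}
    (a : ι → L) (hbd : ∀ i, Bdd n (a i)) (b : L) (hb0 : b ≠ 0) (hbB : Bdd n b)
    (hle : ∀ i, A.valuation (a i) ≤ A.valuation b) (h0 : ∃ i, a i ≠ 0) :
    ∃ i0, a i0 ≠ 0 ∧ ∀ i, A.valuation (a i) ≤ A.valuation (a i0) := by
  have hπ0 : 0 < A.valuation (ℓ : L) := zero_lt_iff.2 (val_ell_ne_zero hℓ)
  have hπ1 : A.valuation (ℓ : L) < 1 := (ValuationSubring.mem_nonunits_iff A).1 hA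
  have hM : n.factorial ≠ 0 := Nat.factorial_ne_zero n
  obtain ⟨sb, hsb⟩ := exists_pow_eq hℓ hA hb0 hbB
  obtain ⟨s0, ⟨i0, hi0, hs0⟩, hmin⟩ := Int.exists_least_of_bdd
    (P := fun s : ℤ => ∃ i, a i ≠ 0 ∧ A.valuation (a i) ^ n.factorial = A.valuation (ℓ : L) ^ s)
    ⟨sb, by
      rintro z ⟨i, _, hz⟩
      have h1 : A.valuation (a i) ^ n.factorial ≤ A.valuation b ^ n.factorial :=
        pow_le_pow_left₀ zero_le (hle i) _
      rw [hz, hsb] at h1
      exact (zpow_le_zpow_iff_right_of_lt_one₀ hπ0 hπ1).1 h1⟩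
    (by
      obtain ⟨i, hi⟩ := h0
      obtain ⟨s, hs⟩ := exists_pow_eq hℓ hA hi (hbd i)
      exact ⟨s, i, hi, hs⟩)
  refine ⟨i0, hi0, fun i => ?_⟩
  by_cases hi : a i = 0
  · rw [hi, map_zero]; exact zero_le
  obtain ⟨s, hs⟩ := exists_pow_eq hℓ hA hi (hbd i)
  have h1 : s0 ≤ s := hmin s ⟨i, hi, hs⟩
  have h2 : A.valuation (a i) ^ n.factorial ≤ A.valuation (a i0) ^ n.factorial := by
    rw [hs, hs0]
    exact (zpow_le_zpow_iff_right_of_lt_one₀ hπ0 hπ1).2 h1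
  exact (pow_le_pow_iff_left₀ zero_le zero_le hM).1 h2

theorem bdd_of_mem (E : IntermediateField ℚ L) [FiniteDimensional ℚ E] {w : L} (hw : w ∈ E) :
    Bdd (Module.finrank ℚ E) w := by
  refine ⟨minpoly ℚ (⟨w, hw⟩ : E), minpoly.ne_zero (IsIntegral.of_finite ℚ _),
    minpoly.natDegree_le _, ?_⟩
  have h1 : aeval (E.val ⟨w, hw⟩) (minpoly ℚ (⟨w, hw⟩ : E)) = E.val (aeval (⟨w, hw⟩ : E) (minpoly ℚ (⟨w, hw⟩ : E))) :=
    aeval_algHom_apply _ _ _
  rw [minpoly.aeval, map_zero] at h1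
  exact h1

/-- **SAT, abstract form.**  A family of elements of a finitely generated `ℤ`-submodule of `L`, not
all zero, contains a nonzero element dividing all the others in `A`. -/
theorem exists_max [Algebra.IsAlgebraic ℚ L] (hℓ : ℓ.Prime) (hA : (ℓ : L) ∈ A.nonunits) {r : ℕ}
    (c : Fin r → L) {ι : Type*} (a : ι → L) (ha : ∀ i, a i ∈ Submodule.span ℤ (Set.range c))
    (h0 : ∃ i, a i ≠ 0) : ∃ i0, a i0 ≠ 0 ∧ ∀ i, a i / a i0 ∈ A := by
  classical
  set E : IntermediateField ℚ L := IntermediateField.adjoin ℚ (Set.range c) with hE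
  have : FiniteDimensional ℚ E :=
    IntermediateField.finiteDimensional_adjoin (fun x _ => (Algebra.IsAlgebraic.isAlgebraic x).isIntegral)
  have hcE : ∀ j, c j ∈ E := fun j => IntermediateField.subset_adjoin ℚ _ ⟨j, rfl⟩
  have hspanE : ∀ x ∈ Submodule.span ℤ (Set.range c), x ∈ E := by
    intro x hx
    induction hx using Submodule.span_induction with
    | mem x hx => obtain ⟨j, rfl⟩ := hx; exact hcE j
    | zero => exact E.zero_mem
    | add x y _ _ hx hy => exact E.add_mem hx hy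
    | smul n x _ hx => exact zsmul_mem hx n
  obtain ⟨i1, hi1⟩ := h0
  have hr : (Finset.univ : Finset (Fin r)).Nonempty := by
    by_contra hne
    rw [Finset.not_nonempty_iff_eq_empty, Finset.univ_eq_empty_iff] at hne
    have : Set.range c = ∅ := Set.range_eq_empty c
    have h2 := ha i1
    rw [this, Submodule.span_empty] at h2
    exact hi1 ((Submodule.mem_bot ℤ).1 h2)
  obtain ⟨j0, -, hj0⟩ := Finset.exists_max_image Finset.univ (fun j => A.valuation (c j)) hr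
  have hspanle : ∀ x ∈ Submodule.span ℤ (Set.range c), A.valuation x ≤ A.valuation (c j0) := by
    intro x hx
    induction hx using Submodule.span_induction with
    | mem x hx => obtain ⟨j, rfl⟩ := hx; exact hj0 j (Finset.mem_univ j)
    | zero => rw [map_zero]; exact zero_le
    | add x y _ _ hx hy => exact (A.valuation.map_add _ _).trans (max_le hx hy)
    | smul n x _ hx =>
      rw [zsmul_eq_mul, map_mul]
      exact (mul_le_of_le_one_left zero_le (val_int_le A n)).trans hx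
  have hb0 : c j0 ≠ 0 := by
    intro h
    have h2 := hspanle _ (ha i1)
    rw [h, map_zero, le_zero_iff, map_eq_zero] at h2
    exact hi1 h2
  obtain ⟨i0, hi0, hmax⟩ := exists_max_of_bdd hℓ hA (Module.finrank ℚ E) a
    (fun i => bdd_of_mem E (hspanE _ (ha i))) (c j0) hb0 (bdd_of_mem E (hcE j0))
    (fun i => hspanle _ (ha i)) ⟨i1, hi1⟩
  refine ⟨i0, hi0, fun i => ?_⟩
  rw [← A.valuation_le_one_iff, map_div₀]
  exact div_le_one_of_le₀ (hmax i) zero_le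

theorem bdd_of_isAlgebraic [Algebra.IsAlgebraic ℚ L] (w : L) : ∃ n, Bdd n w := by
  obtain ⟨p, hp, hpw⟩ := Algebra.IsAlgebraic.isAlgebraic (R := ℚ) w
  exact ⟨p.natDegree, p, hp, le_rfl, hpw⟩

/-- **`A` has rank one.** -/
theorem arch [Algebra.IsAlgebraic ℚ L] (hℓ : ℓ.Prime) (hA : (ℓ : L) ∈ A.nonunits) (π : L)
    (hπ : π ∈ A.nonunits) (a : L) (ha : a ≠ 0) : ∃ n : ℕ, π ^ n * a⁻¹ ∈ A := by
  by_cases hπ0 : π = 0
  · exact ⟨1, by rw [hπ0]; simp [A.zero_mem]⟩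
  have hl0 : 0 < A.valuation (ℓ : L) := zero_lt_iff.2 (val_ell_ne_zero hℓ)
  have hl1 : A.valuation (ℓ : L) < 1 := (ValuationSubring.mem_nonunits_iff A).1 hA
  have hπ1 : A.valuation π < 1 := (ValuationSubring.mem_nonunits_iff A).1 hπ
  obtain ⟨n1, hn1⟩ := bdd_of_isAlgebraic π
  obtain ⟨n2, hn2⟩ := bdd_of_isAlgebraic a⁻¹
  obtain ⟨j, hj0, -, s, hs⟩ := exists_pow_eq_aux hℓ hA hπ0 hn1
  obtain ⟨j', hj'0, -, s', hs'⟩ := exists_pow_eq_aux hℓ hA (inv_ne_zero ha) hn2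
  have hspos : 0 < s := by
    have h1 : A.valuation π ^ j < 1 := pow_lt_one₀ zero_le hπ1 hj0.ne'
    rw [hs, ← zpow_zero (A.valuation (ℓ : L))] at h1
    exact (zpow_lt_zpow_iff_right_of_lt_one₀ hl0 hl1).1 h1
  refine ⟨s'.natAbs * j, ?_⟩
  rw [← A.valuation_le_one_iff]
  have hjj : j * j' ≠ 0 := Nat.mul_ne_zero hj0.ne' hj'0.ne'
  rw [← pow_le_one_iff_of_nonneg zero_le hjj, map_mul, map_pow, mul_pow]
  have e1 : (A.valuation π ^ (s'.natAbs * j)) ^ (j * j') =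
      A.valuation (ℓ : L) ^ (s * ((s'.natAbs * j * j' : ℕ) : ℤ)) := by
    rw [zpow_mul, ← hs, zpow_natCast, ← pow_mul, ← pow_mul]
    congr 1
    ring
  have e2 : A.valuation a⁻¹ ^ (j * j') = A.valuation (ℓ : L) ^ (s' * (j : ℤ)) := by
    rw [zpow_mul, ← hs', zpow_natCast, ← pow_mul, mul_comm]
  rw [e1, e2, ← zpow_add₀ hl0.ne', ← zpow_zero (A.valuation (ℓ : L)),
    zpow_le_zpow_iff_right_of_lt_one₀ hl0 hl1]
  have h3 : -s' ≤ (s'.natAbs : ℤ) := by
    rw [← Int.natAbs_neg]; exact Int.le_natAbs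
  have h4 : (1 : ℤ) ≤ j' := by exact_mod_cast hj'0
  have h5 : (0 : ℤ) ≤ j := by positivity
  have h6 : (0 : ℤ) ≤ (s'.natAbs : ℤ) := by positivity
  rw [Nat.cast_mul, Nat.cast_mul]
  have h7 : (1 : ℤ) ≤ s * j' := by nlinarith
  have h8 : (0 : ℤ) ≤ (s'.natAbs : ℤ) * j := mul_nonneg h6 h5
  have h9 : -s' * j ≤ (s'.natAbs : ℤ) * j := mul_le_mul_of_nonneg_right h3 h5
  have h10 : (s'.natAbs : ℤ) * j * 1 ≤ (s'.natAbs : ℤ) * j * (s * j') :=
    mul_le_mul_of_nonneg_left h7 h8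
  have h11 : s * ((s'.natAbs : ℤ) * j * j') = (s'.natAbs : ℤ) * j * (s * j') := by ring
  rw [h11]
  linarith

end Fermat.Agent.INJ.Inst.Sat
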