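import Fermat.Agent.INJ.Inst.Interface
import Fermat.Agent.INJ.Inst.Sat

/-!
# INJ / Inst : `Arch D`
-/

set_option autoImplicit false
set_option synthInstance.maxHeartbeats 400000

noncomputable section

namespace Fermat.Agent.INJ.Inst

open AlgebraicCurve ModularCurve IntermediateField Polynomial

theorem AR36_stmt_ArchD : Stmt_ArchD := by
  intro N ℓ hℓ A hA L D hD π hπ hπ0 a ha
  have hπA : π ∈ A := hD.hA ▸ hπ
  rw [hD.ra π hπA, IsLocalRing.residue_eq_zero_iff] at hπ0
  have hnu : π ∈ A.nonunits := by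
    rw [ValuationSubring.mem_nonunits_iff_exists_mem_maximalIdeal]
    exact ⟨hπA, hπ0⟩
  have : Algebra.IsAlgebraic ℚ Qb := AlgebraicClosure.isAlgebraic ℚ
  obtain ⟨n, hn⟩ := Sat.arch hℓ.out hA π hnu a ha
  exact ⟨n, by rw [hD.hA]; exact hn⟩

end Fermat.Agent.INJ.Inst

end
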