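import Fermat.Agent.INJ.Inst.Interface

/-!
# INJ / Inst, package I-RA3 : ramification of `t` over `s`, `M = 3` (pure algebra)
-/

set_option autoImplicit false

namespace Fermat.Agent.INJ.Inst

open AlgebraicCurve Polynomial Fermat.Agent.S24

section

variable {K F : Type} [Field K] [CharZero K] [Field F] [Algebra K F]

omit [CharZero K] in
theorem RA3_sub_ne_zero {t : F} (ht : Transcendental K t) (a : K) : t - algebraMap K F a ≠ 0 := by
  intro h
  have h1 : aeval t (X - C a : K[X]) = 0 := by simpa using h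
  exact X_sub_C_ne_zero a ((transcendental_iff.1 ht) _ h1)

omit [CharZero K] in
theorem RA3_ord_sub {t : F} (ht : Transcendental K t) (v : Place K F) {c a : K} (hac : a ≠ c)
    (hv : 0 < v.ord (t - algebraMap K F c)) : v.ord (t - algebraMap K F a) = 0 := by
  have h1 : t - algebraMap K F a = algebraMap K F (c - a) + (t - algebraMap K F c) := by
    rw [map_sub]; ring
  have h2 : algebraMap K F (c - a) ≠ 0 := by
    rw [Ne, map_eq_zero_iff _ (algebraMap K F).injective, sub_eq_zero]
    exact fun h => hac h.symm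
  rw [h1, ord_add_eq_of_lt v h2 (RA3_sub_ne_zero ht c) (by rw [ord_algebraMap]; exact hv),
    ord_algebraMap]

omit [CharZero K] in
theorem RA3_t_mem {t : F} (ht : Transcendental K t) (v : Place K F) {c : K}
    (hv : 0 < v.ord (t - algebraMap K F c)) : t ∈ v.toValuationSubring := by
  have h1 : t = (t - algebraMap K F c) + algebraMap K F c := by ring
  rw [h1]
  exact add_mem (mem_of_ord_nonneg v (RA3_sub_ne_zero ht c) hv.le) (v.algebraMap_mem' c)

/-- `s` is not a constant. -/
theorem RA3_s_sub_ne_zero {s t : F} (ht : Transcendental K t)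
    (hs : s * (t - 27) = t * (t - 24) ^ 3) (c0 : K) : s - algebraMap K F c0 ≠ 0 := by
  intro h
  have hs' : s = algebraMap K F c0 := sub_eq_zero.1 h
  have h1 : aeval t (X * (X - 24) ^ 3 - C c0 * (X - 27) : K[X]) = 0 := by
    simp only [map_sub, map_mul, map_pow, aeval_X, aeval_C, map_ofNat]
    rw [← hs', hs, sub_self]
  have h2 := (transcendental_iff.1 ht) _ h1
  have h3 := congrArg (eval (27 : K)) h2
  simp only [eval_sub, eval_mul, eval_pow, eval_X, eval_C, eval_ofNat, eval_zero] at h3
  norm_num at h3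

end

theorem stmt_RamAlg3 : Stmt_RamAlg3 := by
  intro K F _ _ _ _ s t ht hs hJ v c hc0 hc27 hv
  set γ : F := algebraMap K F c with hγ
  have hV := isVal_ord v
  have htO : t ∈ v.toValuationSubring := RA3_t_mem ht v hv
  have hγO : γ ∈ v.toValuationSubring := v.algebraMap_mem' c
  have htγ : t - γ ≠ 0 := RA3_sub_ne_zero ht c
  have h27 : (27 : F) = algebraMap K F 27 := (map_ofNat _ 27).symm
  have h24 : (24 : F) = algebraMap K F 24 := (map_ofNat _ 24).symm
  have ht27 : t - 27 ≠ 0 := by rw [h27]; exact RA3_sub_ne_zero ht 27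
  have ho27 : v.ord (t - 27) = 0 := by
    rw [h27]; exact RA3_ord_sub ht v (fun h => hc27 h.symm) hv
  have ht0 : t ≠ 0 := by
    have := RA3_sub_ne_zero ht (0 : K)
    simpa using this
  have hot : v.ord t = 0 := by
    have := RA3_ord_sub ht v (a := 0) (fun h => hc0 h.symm) hv
    simpa using this
  have hc27' : c - 27 ≠ 0 := sub_ne_zero.2 hc27
  set c0 : K := c * (c - 24) ^ 3 / (c - 27) with hc0def
  have hc0mul : c0 * (c - 27) = c * (c - 24) ^ 3 := by
    rw [hc0def, div_mul_cancel₀ _ hc27']
  have hsc0 : s - algebraMap K F c0 ≠ 0 := RA3_s_sub_ne_zero ht hs c0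
  by_cases h0 : c0 = 0
  · -- `c = 24`
    have hc24 : c = 24 := by
      rw [h0, zero_mul] at hc0mul
      have := (mul_eq_zero.1 hc0mul.symm).resolve_left hc0
      exact sub_eq_zero.1 (pow_eq_zero_iff (by norm_num) |>.1 this)
    have hγ24 : γ = 24 := by rw [hγ, hc24, map_ofNat]
    have hs0 : s ≠ 0 := by
      have := RA3_s_sub_ne_zero ht hs (0 : K)
      simpa using this
    have h1 : v.ord s = 3 * v.ord (t - γ) := by
      have h2 := congrArg v.ord hs
      rw [hV.map_mul _ _ hs0 ht27, ho27, ← hγ24, hV.map_mul _ _ ht0 (pow_ne_zero 3 htγ), hot,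
        hV.map_pow htγ] at h2
      push_cast at h2
      linarith
    have h3 := (hJ 0 v (by rw [map_zero, sub_zero, h1]; linarith)).1 rfl
    rw [map_zero, sub_zero, h1] at h3
    have h4 := Int.le_of_dvd (by norm_num) h3
    omega
  by_cases h1728 : c0 = 1728
  · have hQc : c ^ 2 - 36 * c + 216 = 0 := by
      have h1 : (c ^ 2 - 36 * c + 216) ^ 2 = 0 := by
        have : (c ^ 2 - 36 * c + 216) ^ 2 = c * (c - 24) ^ 3 - 1728 * (c - 27) := by ring
        rw [this, ← hc0mul, h1728, sub_self]
      exact pow_eq_zero_iff (by norm_num) |>.1 h1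
    have hQγ : γ ^ 2 - 36 * γ + 216 = 0 := by
      have := congrArg (algebraMap K F) hQc
      simpa only [map_add, map_sub, map_mul, map_pow, map_ofNat, map_zero, ← hγ] using this
    have hs1728 : s - 1728 ≠ 0 := by
      have := hsc0
      rwa [h1728, map_ofNat] at this
    have hid : (s - 1728) * (t - 27) = ((t - γ) * (t + γ - 36)) ^ 2 := by
      have h1 : (t - γ) * (t + γ - 36) = t ^ 2 - 36 * t + 216 - (γ ^ 2 - 36 * γ + 216) := by ring
      rw [h1, hQγ, sub_zero, sub_mul, hs]
      ring
    have hw : t + γ - 36 ≠ 0 := by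
      intro h
      rw [h, mul_zero, zero_pow (by norm_num)] at hid
      exact (mul_ne_zero hs1728 ht27) hid
    have hwO : 0 ≤ v.ord (t + γ - 36) :=
      ord_nonneg_of_mem v (sub_mem (add_mem htO hγO) (ofNat_mem _ 36))
    have h1 : v.ord (s - 1728) = 2 * (v.ord (t - γ) + v.ord (t + γ - 36)) := by
      have h2 := congrArg v.ord hid
      rw [hV.map_mul _ _ hs1728 ht27, ho27, hV.map_pow (mul_ne_zero htγ hw),
        hV.map_mul _ _ htγ hw] at h2
      push_cast at h2
      linarith
    have h3 := (hJ 1728 v (by rw [map_ofNat, h1]; linarith)).2.1 rfl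
    rw [map_ofNat, h1] at h3
    have h4 := Int.le_of_dvd (by norm_num) h3
    omega
  · -- generic case
    set R : F := (γ - 27) * ((t ^ 3 + t ^ 2 * γ + t * γ ^ 2 + γ ^ 3) - 72 * (t ^ 2 + t * γ + γ ^ 2)
      + 1728 * (t + γ) - 13824) - γ * (γ - 24) ^ 3 with hR
    have hc0γ : algebraMap K F c0 * (γ - 27) = γ * (γ - 24) ^ 3 := by
      have := congrArg (algebraMap K F) hc0mul
      simpa only [map_add, map_sub, map_mul, map_pow, map_ofNat, map_zero, ← hγ] using this
    have hid : (s - algebraMap K F c0) * (t - 27) * (γ - 27) = (t - γ) * R := by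
      have h1 : (s - algebraMap K F c0) * (t - 27) * (γ - 27) =
          s * (t - 27) * (γ - 27) - algebraMap K F c0 * (γ - 27) * (t - 27) := by ring
      rw [h1, hs, hc0γ, hR]
      ring
    have hγ27 : γ - 27 ≠ 0 := by
      have : γ - 27 = algebraMap K F (c - 27) := by rw [map_sub, map_ofNat]
      rw [this, Ne, map_eq_zero_iff _ (algebraMap K F).injective]
      exact hc27'
    have hoγ27 : v.ord (γ - 27) = 0 := by
      have : γ - 27 = algebraMap K F (c - 27) := by rw [map_sub, map_ofNat]
      rw [this, ord_algebraMap]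
    have hR0 : R ≠ 0 := by
      intro h
      rw [h, mul_zero] at hid
      exact (mul_ne_zero (mul_ne_zero hsc0 ht27) hγ27) hid
    have hRO : 0 ≤ v.ord R := by
      apply ord_nonneg_of_mem
      rw [hR]
      have e27 : (27 : F) ∈ v.toValuationSubring := ofNat_mem _ 27
      have e72 : (72 : F) ∈ v.toValuationSubring := ofNat_mem _ 72
      have e1728 : (1728 : F) ∈ v.toValuationSubring := ofNat_mem _ 1728
      have e13824 : (13824 : F) ∈ v.toValuationSubring := ofNat_mem _ 13824
      have e24 : (24 : F) ∈ v.toValuationSubring := ofNat_mem _ 24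
      apply_rules [sub_mem, add_mem, mul_mem, pow_mem]
    have h1 : v.ord (s - algebraMap K F c0) = v.ord (t - γ) + v.ord R := by
      have h2 := congrArg v.ord hid
      rw [hV.map_mul _ _ (mul_ne_zero hsc0 ht27) hγ27, hV.map_mul _ _ hsc0 ht27, ho27, hoγ27,
        hV.map_mul _ _ htγ hR0] at h2
      linarith
    have h3 := (hJ c0 v (by rw [h1]; linarith)).2.2 h0 h1728
    rw [h1] at h3
    omega

end Fermat.Agent.INJ.Inst
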