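import Fermat.Agent.INJ.Inst.ChartT
import Fermat.Agent.INJ.Inst.RamAlg3
import Fermat.Agent.INJ.Inst.Sat
import Fermat.Agent.INJ.TameBranch

/-!
# INJ / Inst : the branch conditions for `t = x_M(q^(N/M))` and `t⁻¹`
-/

set_option autoImplicit false
set_option linter.style.haveILetI false
set_option linter.unusedSectionVars false
set_option synthInstance.maxHeartbeats 400000

noncomputable section

namespace Fermat.Agent.INJ.Inst

open AlgebraicCurve ModularCurve IntermediateField Polynomial Fermat.Agent.KL.Haupt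
open Fermat.Agent Fermat.Agent.S24

/-- unramifiedness for `t⁻¹` from unramifiedness for `t`. -/
theorem BR_inv {K F : Type} [Field K] [Field F] [Algebra K F] {t : F} (ht : Transcendental K t)
    (a : K)
    (h : ∀ (v : Place K F) (c : K), c ≠ 0 → c ≠ a → 0 < v.ord (t - algebraMap K F c) →
      v.ord (t - algebraMap K F c) = 1)
    (v : Place K F) (c : K) (hc : c ≠ 0) (hca : c ≠ a⁻¹)
    (hv : 0 < v.ord (t⁻¹ - algebraMap K F c)) : v.ord (t⁻¹ - algebraMap K F c) = 1 := by
  have hti : Transcendental K t⁻¹ := placeCases_transcendental_inv ht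
  have ht0 : t ≠ 0 := rh_ne_zero_of_transcendental ht
  have h0 : v.ord (t⁻¹ - algebraMap K F 0) = 0 := RA3_ord_sub hti v (Ne.symm hc) hv
  rw [map_zero, sub_zero, v.ord_inv] at h0
  have hC : algebraMap K F c ≠ 0 := by
    rwa [Ne, map_eq_zero_iff _ (algebraMap K F).injective]
  have hid : t⁻¹ - algebraMap K F c
      = algebraMap K F (-c) * ((t - algebraMap K F c⁻¹) * t⁻¹) := by
    rw [map_neg, map_inv₀]
    field_simp
    ring
  have hne : t - algebraMap K F c⁻¹ ≠ 0 := RA3_sub_ne_zero ht _
  have hC' : algebraMap K F (-c) ≠ 0 := by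
    rw [map_neg]; exact neg_ne_zero.mpr hC
  have hord : v.ord (t⁻¹ - algebraMap K F c) = v.ord (t - algebraMap K F c⁻¹) := by
    rw [hid, v.ord_mul hC' (mul_ne_zero hne (inv_ne_zero ht0)), ord_algebraMap,
      v.ord_mul hne (inv_ne_zero ht0), v.ord_inv]
    omega
  rw [hord] at hv ⊢
  refine h v c⁻¹ (inv_ne_zero hc) ?_ hv
  intro hcon
  apply hca
  rw [← hcon, inv_inv]

/-- abstract form of the two branch conditions. -/
theorem BR_aux {K F k Fb : Type} [Field K] [IsAlgClosed K] [CharZero K] [Field F] [Algebra K F]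
    [Field k] [Field Fb] [Algebra k Fb] (D : RedData K F k Fb) {t : F} (ht : Transcendental K t)
    [FiniteDimensional K⟮t⟯ F] (a : K) (ha0 : a ≠ 0) (ha : a ∈ D.A) (hai : a⁻¹ ∈ D.A)
    (h : ∀ (v : Place K F) (c : K), c ≠ 0 → c ≠ a → 0 < v.ord (t - algebraMap K F c) →
      v.ord (t - algebraMap K F c) = 1) : Branch D t ∧ Branch D t⁻¹ := by
  classical
  constructor
  · refine Tame.branch_of_unram D ht {0, a} ?_ ?_ ?_
    · intro c hc
      simp only [Finset.mem_insert, Finset.mem_singleton] at hc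
      rcases hc with rfl | rfl
      · exact D.A.zero_mem
      · exact ha
    · intro c hc c' hc' hne
      simp only [Finset.mem_insert, Finset.mem_singleton] at hc hc'
      rcases hc with rfl | rfl <;> rcases hc' with rfl | rfl
      · exact absurd rfl hne
      · rw [zero_sub, inv_neg]; exact neg_mem hai
      · rw [sub_zero]; exact hai
      · exact absurd rfl hne
    · intro v c hc
      simp only [Finset.mem_insert, Finset.mem_singleton, not_or] at hc
      exact h v c hc.1 hc.2
  · haveI : FiniteDimensional K⟮t⁻¹⟯ F := placeCases_finiteDimensional_adjoin_inv t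
    refine Tame.branch_of_unram D (placeCases_transcendental_inv ht) {0, a⁻¹} ?_ ?_ ?_
    · intro c hc
      simp only [Finset.mem_insert, Finset.mem_singleton] at hc
      rcases hc with rfl | rfl
      · exact D.A.zero_mem
      · exact hai
    · intro c hc c' hc' hne
      simp only [Finset.mem_insert, Finset.mem_singleton] at hc hc'
      rcases hc with rfl | rfl <;> rcases hc' with rfl | rfl
      · exact absurd rfl hne
      · rw [zero_sub, inv_neg, inv_inv]; exact neg_mem ha
      · rw [sub_zero, inv_inv]; exact ha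
      · exact absurd rfl hne
    · intro v c hc
      simp only [Finset.mem_insert, Finset.mem_singleton, not_or] at hc
      exact BR_inv ht a h v c hc.1 hc.2

theorem BR_inv_mem {ℓ : ℕ} (hℓ : ℓ.Prime) {A : ValuationSubring Qb} (hA : A.LiesOverPrime ℓ)
    (n : ℕ) (hn : ¬ ℓ ∣ n) : ((n : Qb))⁻¹ ∈ A := by
  rw [← A.valuation_le_one_iff, map_inv₀, Sat.val_nat_eq_one hℓ hA n hn, inv_one]

theorem stmt_BranchT (hCT : Stmt_ChartT) (hRS : Stmt_RamS) (h2 : Stmt_RamAlg2)
    (h3 : Stmt_RamAlg3) : Stmt_BranchT := by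
  intro M N _ ℓ hℓp hM hMN hℓ A hA L D hD t ht
  have hN : N ≠ 0 := NeZero.ne N
  have hC : Chart D t := hCT M N ℓ hM hMN hℓ A hA L D hD t ht
  haveI : FiniteDimensional Qb⟮t⟯ (FL N) := hC.fin
  set s : FL N := ⟨S28.jd Qb N, jd_mem_bar hN dvd_rfl⟩ with hs
  have hJ : JRam (K := Qb) s := hRS N s rfl
  have htr : Transcendental Qb t :=
    transcendental_of_coe (by rw [ht]; exact transcendental_tS Qb hN hMN)
  have hℓM : ¬ ℓ ∣ M := fun h => hℓ (h.trans hMN)
  rcases hM with rfl | rfl
  · have hrel : s * (t - 64) = (t - 48) ^ 3 := by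
      apply Subtype.ext
      have := rel_tS2 Qb hN hMN
      push_cast
      rw [ht]
      exact this
    have hn : ¬ ℓ ∣ 64 := fun h => hℓM (by
      have : ℓ ∣ 2 ^ 6 := by norm_num; exact h
      exact hℓp.out.dvd_of_dvd_pow this)
    refine BR_aux D htr 64 (by norm_num) ?_ ?_ (h2 Qb (FL N) s t htr hrel hJ)
    · rw [hD.hA]; exact_mod_cast natCast_mem A 64
    · rw [hD.hA]; exact_mod_cast BR_inv_mem hℓp.out hA 64 hn
  · have hrel : s * (t - 27) = t * (t - 24) ^ 3 := by
      apply Subtype.ext
      have := rel_tS3 Qb hN hMN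
      push_cast
      rw [ht]
      exact this
    have hn : ¬ ℓ ∣ 27 := fun h => hℓM (by
      have : ℓ ∣ 3 ^ 3 := by norm_num; exact h
      exact hℓp.out.dvd_of_dvd_pow this)
    refine BR_aux D htr 27 (by norm_num) ?_ ?_ (h3 Qb (FL N) s t htr hrel hJ)
    · rw [hD.hA]; exact_mod_cast natCast_mem A 27
    · rw [hD.hA]; exact_mod_cast BR_inv_mem hℓp.out hA 27 hn

end Fermat.Agent.INJ.Inst

end
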