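import Fermat.Agent.INJ.Interface
import Fermat.Agent.KL.HauptMem
import Fermat.Agent.S18.Glue2
import Fermat.Agent.S24.UnifFinite
import Fermat.Agent.S24.RiemannHurwitz

/-!
# INJ / Inst : instantiation of the abstract Claim K (`Stmt_INJ`) at the modular function fields.

Level `N`, auxiliary prime `M ∈ {2, 3}`, `M ∣ N`, `ℓ ∤ N`.  `K = ℚ̄`, `F = FL N`, `k = kA A`.
Base coordinate `s = j(q^N)` (the base of the S28 tower), chart coordinate
`t = x_M(q^(N/M))` (`tS M N`).  Relations: `s (t - 64) = (t - 48)^3`, resp.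
`s (t - 27) = t (t - 24)^3`.  All statements are `Prop`s, each proved in its own file.
-/

set_option autoImplicit false

noncomputable section

namespace Fermat.Agent.INJ.Inst

open AlgebraicCurve ModularCurve IntermediateField Polynomial Fermat.Agent.KL.Haupt

/-- `ℚ̄`. -/
abbrev Qb : Type := AlgebraicClosure ℚ

/-- the function field of `X₀(N)` over `ℚ̄`. -/
abbrev FL (N : ℕ) : Type := ↥(modularFunctionFieldBar N)

/-- the residue field of `A`. -/
abbrev kA (A : ValuationSubring Qb) : Type := IsLocalRing.ResidueField A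

/-- the Hauptmodul `x_M(q)`, `M ∈ {2, 3}`. -/
def xq (M : ℕ) (R : Type) [CommRing R] : LaurentSeries R := if M = 2 then xq2 R else xq3 R

/-- the chart coordinate `t = x_M(q^(N/M))`. -/
def tS (M N : ℕ) (R : Type) [CommRing R] : LaurentSeries R := S28.Vq R (N / M) (xq M R)

/-- the finite nonzero branch point: `64` resp. `27`. -/
def cB (M : ℕ) : ℕ := if M = 2 then 64 else 27

/-- `D` is "the" Gauss reduction datum on `FL N`: on `A`-integral series it is the coefficientwise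
reduction. -/
structure IsGauss (N : ℕ) (A : ValuationSubring Qb)
    (L : IntermediateField (kA A) (LaurentSeries (kA A)))
    (D : RedData Qb (FL N) (kA A) L) : Prop where
  hA : D.A = A
  ra : ∀ (a : Qb) (ha : a ∈ A), D.ra a = IsLocalRing.residue A ⟨a, ha⟩
  rd : ∀ (y : LaurentSeries A) (h : coeffMap A.subtype y ∈ modularFunctionFieldBar N),
    (⟨_, h⟩ : FL N) ∈ D.O ∧
      ((D.rd (⟨_, h⟩ : FL N) : L) : LaurentSeries (kA A)) = coeffMap (IsLocalRing.residue A) y

/-- [G] existence of the Gauss reduction datum. -/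
def Stmt_ExGauss : Prop :=
  ∀ (N : ℕ) [NeZero N] (ℓ : ℕ) [Fact ℓ.Prime] (A : ValuationSubring Qb), A.LiesOverPrime ℓ →
    ∃ (L : IntermediateField (kA A) (LaurentSeries (kA A))) (D : RedData Qb (FL N) (kA A) L),
      IsGauss N A L D

/-- [T] the S28 tower over an arbitrary algebraically closed field in which `N ≠ 0`, with the
spanning statement over `ℚ̄`. -/
def Stmt_Tower : Prop :=
  ∀ (N : ℕ) [NeZero N] (k : Type) [Field k] [IsAlgClosed k], (N : k) ≠ 0 →
    ∃ (ι : Type) (_ : Fintype ι) (b : ι → LaurentSeries ℤ),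
      (∀ i, b i ∈ S28.ZJ N) ∧
      (∀ x ∈ modularFunctionFieldBar N,
        x ∈ Submodule.span (S28.Ej Qb N) (Set.range fun i => S28.cZ Qb (b i))) ∧
      LinearIndependent (S28.Ej k N) (fun i => S28.cZ k (b i))

/-- [SEP] a subfield of `k((q))` algebraic over `k(s)`, `θ s ≠ 0`, is separable over `k(s)`. -/
def Stmt_Sep : Prop :=
  ∀ (k : Type) [Field k] [IsAlgClosed k] (L : IntermediateField k (LaurentSeries k)) (s : L),
    (∃ n : ℤ, (n : k) * (s : LaurentSeries k).coeff n ≠ 0) → Algebra.IsAlgebraic k⟮s⟯ L →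
    Algebra.IsSeparable k⟮s⟯ L

/-- [CS] `s = j(q^N)` is a good coordinate. -/
def Stmt_ChartS : Prop :=
  ∀ (N : ℕ) [NeZero N] (ℓ : ℕ) [Fact ℓ.Prime], ¬ ℓ ∣ N →
    ∀ A : ValuationSubring Qb, A.LiesOverPrime ℓ →
    ∀ (L : IntermediateField (kA A) (LaurentSeries (kA A))) (D : RedData Qb (FL N) (kA A) L),
      IsGauss N A L D → ∀ s : FL N, (s : LaurentSeries Qb) = S28.jd Qb N → Chart D s

/-- [DL] degree lemma: `s = P(t)/Q(t)`, `deg Q < deg P`, `P, Q` coprime: `1, t, …, t^(deg P - 1)` are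
independent over `K(s)`. -/
def Stmt_DegLemma : Prop :=
  ∀ (K F : Type) [Field K] [Field F] [Algebra K F] (s t : F) (P Q : K[X]),
    Transcendental K t → IsCoprime P Q → Q.natDegree < P.natDegree →
    s * aeval t Q = aeval t P →
    LinearIndependent K⟮s⟯ (fun i : Fin P.natDegree => t ^ (i : ℕ))

/-- [CT] `t = x_M(q^(N/M))` is a good coordinate. -/
def Stmt_ChartT : Prop :=
  ∀ (M N : ℕ) [NeZero N] (ℓ : ℕ) [Fact ℓ.Prime], (M = 2 ∨ M = 3) → M ∣ N → ¬ ℓ ∣ N →
    ∀ A : ValuationSubring Qb, A.LiesOverPrime ℓ →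
    ∀ (L : IntermediateField (kA A) (LaurentSeries (kA A))) (D : RedData Qb (FL N) (kA A) L),
      IsGauss N A L D → ∀ t : FL N, (t : LaurentSeries Qb) = tS M N Qb → Chart D t

/-- [W] the Fricke involution of `FL N`. -/
def Stmt_Fricke : Prop :=
  ∀ (N : ℕ) [NeZero N], ∃ W : FL N ≃ₐ[Qb] FL N,
    ∀ d : ℕ, d ∣ N → ∀ x y : FL N, (x : LaurentSeries Qb) = S28.jd Qb d →
      (y : LaurentSeries Qb) = S28.jd Qb (N / d) → W x = y

/-- the ramification pattern of a `j`-like coordinate `s`: `e ∣ 3` over `0`, `e ∣ 2` over `1728`,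
unramified over the other finite points. -/
def JRam {K F : Type*} [Field K] [Field F] [Algebra K F] (s : F) : Prop :=
  ∀ (c : K) (v : Place K F), 0 < v.ord (s - algebraMap K F c) →
    (c = 0 → v.ord (s - algebraMap K F c) ∣ 3) ∧
    (c = 1728 → v.ord (s - algebraMap K F c) ∣ 2) ∧
    (c ≠ 0 → c ≠ 1728 → v.ord (s - algebraMap K F c) = 1)

/-- [RU] abstract: ramification indices divide the order of the monodromy permutation. -/
def Stmt_RamUnif : Prop :=
  ∀ (K F M : Type) [Field K] [IsAlgClosed K] [CharZero K] [Field F] [Algebra K F] [Field M]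
    [Algebra K M] (w : M → ℤ) (δ : Derivation K M M), S24.IsDiffVal w δ →
    ∀ (x : F) [FiniteDimensional K⟮x⟯ F] (I : Type) [Fintype I],
      Module.finrank K⟮x⟯ F ≤ Fintype.card I →
    ∀ (π : Equiv.Perm I), S24.LocalUnif K w x I π → ∀ h : ℕ, π ^ h = 1 →
    ∀ v : Place K F, 0 < v.ord x → v.ord x ∣ (h : ℤ)

/-- [RJ] ramification of `FL N` over the `j`-line. -/
def Stmt_RamJ : Prop := ∀ (N : ℕ) [NeZero N], JRam (K := Qb) (S24.jF N)

/-- [RS] ramification of `FL N` over the `j(q^N)`-line. -/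
def Stmt_RamS : Prop :=
  ∀ (N : ℕ) [NeZero N] (s : FL N), (s : LaurentSeries Qb) = S28.jd Qb N → JRam (K := Qb) s

/-- [RA2] pure algebra, `M = 2`. -/
def Stmt_RamAlg2 : Prop :=
  ∀ (K F : Type) [Field K] [CharZero K] [Field F] [Algebra K F] (s t : F), Transcendental K t →
    s * (t - 64) = (t - 48) ^ 3 → JRam (K := K) s →
    ∀ (v : Place K F) (c : K), c ≠ 0 → c ≠ 64 → 0 < v.ord (t - algebraMap K F c) →
      v.ord (t - algebraMap K F c) = 1

/-- [RA3] pure algebra, `M = 3`. -/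
def Stmt_RamAlg3 : Prop :=
  ∀ (K F : Type) [Field K] [CharZero K] [Field F] [Algebra K F] (s t : F), Transcendental K t →
    s * (t - 27) = t * (t - 24) ^ 3 → JRam (K := K) s →
    ∀ (v : Place K F) (c : K), c ≠ 0 → c ≠ 27 → 0 < v.ord (t - algebraMap K F c) →
      v.ord (t - algebraMap K F c) = 1

/-- [BC] helper31's tame branch clause. -/
def Stmt_BranchClause : Prop :=
  ∀ (K F : Type) [Field K] [IsAlgClosed K] [CharZero K] [Field F] [Algebra K F] (t : F),
    Transcendental K t → FiniteDimensional K⟮t⟯ F → ∀ S : Finset K,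
    (∀ (v : Place K F) (c : K), c ∉ S → 0 < v.ord (t - algebraMap K F c) →
      v.ord (t - algebraMap K F c) = 1) →
    ∀ z : F, InDual K t z → ∃ m : ℕ, 0 < m ∧ IsInt K t ((z * beta t S) ^ m / beta t S)

/-- [BR] the branch conditions for `t` and `t⁻¹`. -/
def Stmt_BranchT : Prop :=
  ∀ (M N : ℕ) [NeZero N] (ℓ : ℕ) [Fact ℓ.Prime], (M = 2 ∨ M = 3) → M ∣ N → ¬ ℓ ∣ N →
    ∀ A : ValuationSubring Qb, A.LiesOverPrime ℓ →
    ∀ (L : IntermediateField (kA A) (LaurentSeries (kA A))) (D : RedData Qb (FL N) (kA A) L),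
      IsGauss N A L D → ∀ t : FL N, (t : LaurentSeries Qb) = tS M N Qb →
      Branch D t ∧ Branch D t⁻¹

/-- [LP] divisor divisible by `m` implies locally an `m`-th power times a unit. -/
def Stmt_LocPow : Prop :=
  ∀ (K F : Type) [Field K] [IsAlgClosed K] [CharZero K] [Field F] [Algebra K F] (t u : F) (m : ℕ),
    Transcendental K t → FiniteDimensional K⟮t⟯ F → u ≠ 0 → 0 < m →
    (∀ P : Place K F, (m : ℤ) ∣ P.ord u) → LocPow K t u m

/-- [AR] `A` has rank one. -/
def Stmt_ArchD : Prop :=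
  ∀ (N : ℕ) (ℓ : ℕ) [Fact ℓ.Prime] (A : ValuationSubring Qb), A.LiesOverPrime ℓ →
    ∀ (L : IntermediateField (kA A) (LaurentSeries (kA A))) (D : RedData Qb (FL N) (kA A) L),
      IsGauss N A L D → Arch D

/-- [FIN] Claim K at the levels divisible by `M`. -/
def Stmt_ClaimKM : Prop :=
  ∀ (M N : ℕ) [NeZero N] (ℓ : ℕ) [Fact ℓ.Prime], (M = 2 ∨ M = 3) → M ∣ N → ¬ ℓ ∣ N →
    ∀ A : ValuationSubring Qb, A.LiesOverPrime ℓ → S18.Stmt_ClaimK_at N ℓ A

end Fermat.Agent.INJ.Inst

end
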