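/-
TEAM INJ, package I-DL (helper75): the degree lemma `Stmt_DegLemma`.

In `K(X)` the minimal polynomial of `X` over `K(f)` is `num f - f * denom f` (Mathlib, file
`FieldTheory/RatFunc/IntermediateField`), of degree `max (deg num) (deg denom)`; transport along the
embedding `K(X) → F`, `X ↦ t`.
-/
import Fermat.Agent.INJ.Inst.Interface

set_option autoImplicit false

noncomputable section

namespace Fermat.Agent.INJ.Inst

open AlgebraicCurve ModularCurve IntermediateField Polynomial
open IntermediateField.algebraAdjoinAdjoin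

/-- In `K(X)`: the powers `X ^ i`, `i < deg (num f)`, are independent over `K(f)`. -/
theorem DL_ratFunc {K : Type} [Field K] (f : RatFunc K) (hf : 0 < f.num.natDegree) :
    LinearIndependent K⟮f⟯ (fun i : Fin f.num.natDegree => (RatFunc.X : RatFunc K) ^ (i : ℕ)) := by
  have hfC : ¬ ∃ c, f = RatFunc.C c := by
    rw [RatFunc.eq_C_iff]
    omega
  have h0 : f.minpolyX K⟮f⟯ ≠ 0 := (f.irreducible_minpolyX hfC).ne_zero
  have h1 : (minpoly K⟮f⟯ (RatFunc.X : RatFunc K)).natDegree
      = max f.num.natDegree f.denom.natDegree := by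
    rw [← minpoly.eq_of_irreducible (f.irreducible_minpolyX hfC) f.minpolyX_aeval_X, mul_comm,
      natDegree_C_mul (inv_ne_zero (leadingCoeff_ne_zero.mpr h0)), RatFunc.natDegree_minpolyX]
  have h2 : f.num.natDegree ≤ (minpoly K⟮f⟯ (RatFunc.X : RatFunc K)).natDegree := by
    rw [h1]; exact le_max_left _ _
  exact (linearIndependent_pow (K := K⟮f⟯) (RatFunc.X : RatFunc K)).comp (Fin.castLE h2)
    (Fin.castLE_injective h2)

/-- [DL] the degree lemma. -/
theorem stmt_DegLemma : Stmt_DegLemma := by
  intro K F _ _ _ s t P Q ht hPQ hdeg hs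
  have hinj : Function.Injective (aeval t : K[X] →ₐ[K] F) := transcendental_iff_injective.1 ht
  set φ : RatFunc K →ₐ[K] F := IsFractionRing.liftAlgHom (K := RatFunc K) hinj with hφ
  have hφa : ∀ p : K[X], φ (algebraMap K[X] (RatFunc K) p) = aeval t p := by
    intro p
    rw [hφ, IsFractionRing.liftAlgHom_apply]
    exact IsFractionRing.lift_algebraMap (g := (aeval t : K[X] →ₐ[K] F).toRingHom) hinj p
  have hP0 : P ≠ 0 := by
    rintro rfl
    simp at hdeg
  have hQ0 : Q ≠ 0 := by
    rintro rfl
    have h1 : IsUnit P := isCoprime_zero_right.1 hPQ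
    have := natDegree_eq_zero_of_isUnit h1
    omega
  set f : RatFunc K := algebraMap K[X] (RatFunc K) P / algebraMap K[X] (RatFunc K) Q with hf
  have hQt : aeval t Q ≠ 0 := fun h => hQ0 (hinj (by rw [h, map_zero]))
  have hφf : φ f = s := by
    rw [hf, map_div₀, hφa, hφa, ← hs, mul_div_cancel_right₀ _ hQt]
  have hφX : φ RatFunc.X = t := by
    rw [← RatFunc.algebraMap_X, hφa, aeval_X]
  -- the degree of the numerator
  have hrel : f.num * Q = P * f.denom := (RatFunc.num_mul_eq_mul_denom_iff hQ0).2 rfl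
  have hd1 : P ∣ f.num := hPQ.dvd_of_dvd_mul_right (Dvd.intro _ hrel.symm)
  have hd2 : f.num ∣ P := f.isCoprime_num_denom.dvd_of_dvd_mul_right (Dvd.intro _ hrel)
  have hnum : f.num.natDegree = P.natDegree :=
    natDegree_eq_of_degree_eq (degree_eq_degree_of_associated (associated_of_dvd_dvd hd2 hd1))
  have hli := DL_ratFunc f (by omega)
  -- transport along `φ`
  have hmap : (K⟮f⟯).map φ = K⟮s⟯ := by
    rw [adjoin_map, Set.image_singleton, hφf]
  have hmem : ∀ x : K⟮f⟯, φ (x : RatFunc K) ∈ K⟮s⟯ := by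
    intro x
    rw [← hmap]
    exact (IntermediateField.mem_map _).2 ⟨x, x.2, rfl⟩
  have hli2 := hli.map_of_surjective_injective (R' := K⟮s⟯) (M' := F)
    (fun x => ⟨φ (x : RatFunc K), hmem x⟩) (φ : RatFunc K →+ F)
    (by
      intro y
      have hy : (y : F) ∈ (K⟮f⟯).map φ := by rw [hmap]; exact y.2
      obtain ⟨x, hx, hxy⟩ := (IntermediateField.mem_map _).1 hy
      exact ⟨⟨x, hx⟩, Subtype.ext hxy⟩)
    (by
      intro x hx
      exact (map_eq_zero φ).1 hx)
    (by
      intro r x
      rw [IntermediateField.smul_def, IntermediateField.smul_def]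
      simp)
  have hli3 := hli2.comp (Fin.cast hnum.symm) (Fin.cast_injective _)
  convert hli3 using 1
  funext i
  simp [hφX]

end Fermat.Agent.INJ.Inst

end
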