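import Fermat.Agent.INJ.Inst.Interface
import Fermat.Agent.S28.Tower
import Fermat.Agent.S28.L1

/-!
# INJ / Inst : basic facts on `s = j(q^N)` and `t = x_M(q^(N/M))`
-/

set_option autoImplicit false
set_option linter.style.haveILetI false

noncomputable section

namespace Fermat.Agent.INJ.Inst

open AlgebraicCurve ModularCurve IntermediateField Polynomial Fermat.Agent.KL.Haupt
open Fermat.Agent

section Ring

variable {R S : Type} [CommRing R] [CommRing S]

theorem coeffMap_xq (f : R →+* S) (M : ℕ) : coeffMap f (xq M R) = xq M S := by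
  unfold xq
  split_ifs
  · exact coeffMap_xq2 f
  · exact coeffMap_xq3 f

theorem coeffMap_tS (f : R →+* S) (M N : ℕ) : coeffMap f (tS M N R) = tS M N S := by
  rw [tS, S28.tower_coeffMap_Vq, coeffMap_xq, tS]

theorem coeffMap_jd (f : R →+* S) (d : ℕ) : coeffMap f (S28.jd R d) = S28.jd S d :=
  S28.tower_coeffMap_jd f d

variable (R)

theorem div_ne_zero_of_dvd {M N : ℕ} (hN : N ≠ 0) (hMN : M ∣ N) : N / M ≠ 0 := by
  obtain ⟨e, rfl⟩ := hMN
  rcases Nat.eq_zero_or_pos M with rfl | hM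
  · simp at hN
  · rw [Nat.mul_div_cancel_left _ hM]
    rintro rfl
    simp at hN

theorem Vq_jM {M N : ℕ} [NeZero M] (hN : N ≠ 0) (hMN : M ∣ N) :
    S28.Vq R (N / M) (qExpand R M (jqModC R)) = S28.jd R N := by
  rw [← S28.Vq_eq, S28.tower_Vq_Vq R (div_ne_zero_of_dvd hN hMN) (NeZero.ne M),
    Nat.div_mul_cancel hMN, S28.jd]

/-- `s (t - 64) = (t - 48)^3`. -/
theorem rel_tS2 {N : ℕ} (hN : N ≠ 0) (hMN : 2 ∣ N) :
    S28.jd R N * (tS 2 N R - 64) = (tS 2 N R - 48) ^ 3 := by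
  have h := congrArg (S28.Vq R (N / 2)) (rel2_j2 R)
  rw [map_mul, Vq_jM R hN hMN, map_sub, map_pow, map_sub, map_ofNat, map_ofNat] at h
  simpa [tS, xq] using h

/-- `s (t - 27) = t (t - 24)^3`. -/
theorem rel_tS3 {N : ℕ} (hN : N ≠ 0) (hMN : 3 ∣ N) :
    S28.jd R N * (tS 3 N R - 27) = tS 3 N R * (tS 3 N R - 24) ^ 3 := by
  have h := congrArg (S28.Vq R (N / 3)) (rel3_j3 R)
  rw [map_mul, Vq_jM R hN hMN, map_sub, map_mul, map_pow, map_sub, map_ofNat, map_ofNat] at h
  simpa [tS, xq] using h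

theorem coeff_xq_neg_one (M : ℕ) : (xq M R).coeff (-1) = 1 := by
  unfold xq
  split_ifs
  · exact coeff_xq2_neg_one R
  · exact coeff_xq3_neg_one R

theorem coeff_tS {M N : ℕ} (hN : N ≠ 0) (hMN : M ∣ N) :
    (tS M N R).coeff (-((N / M : ℕ) : ℤ)) = 1 := by
  haveI : NeZero (N / M) := ⟨div_ne_zero_of_dvd hN hMN⟩
  rw [tS, S28.Vq_eq, show (-((N / M : ℕ) : ℤ)) = ((N / M : ℕ) : ℤ) * (-1) by ring,
    qExpand_coeff_mul, coeff_xq_neg_one]

theorem coeff_jd {N : ℕ} (hN : N ≠ 0) : (S28.jd R N).coeff (-(N : ℤ)) = 1 := by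
  haveI : NeZero N := ⟨hN⟩
  rw [S28.jd, S28.Vq_eq, show (-(N : ℤ)) = (N : ℤ) * (-1) by ring,
    qExpand_coeff_mul, coeff_jqModC_neg_one]

end Ring

section Field

variable (k : Type) [Field k]

theorem transcendental_of_coeff {y : LaurentSeries k} {n : ℤ} (hn : n < 0) (hy : y.coeff n ≠ 0) :
    Transcendental k y := by
  have hord : y.order ≠ 0 := by
    have := HahnSeries.order_le_of_coeff_ne_zero hy
    omega
  rw [transcendental_iff_injective]
  have h := S28.L1.evY_injective y hord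
  intro P Q hPQ
  apply h
  have : ∀ P : k[X], S28.evY y P = Polynomial.aeval y P := by
    intro P
    rw [S28.evY, Polynomial.coe_eval₂RingHom, Polynomial.aeval_def]
    congr 1
    ext1 a
    rw [algebraMap_laurentSeries_eq_single]
    rfl
  rw [this, this, hPQ]

theorem transcendental_tS {M N : ℕ} (hN : N ≠ 0) (hMN : M ∣ N) : Transcendental k (tS M N k) := by
  refine transcendental_of_coeff k (n := -((N / M : ℕ) : ℤ)) ?_ ?_
  · have := Nat.pos_of_ne_zero (div_ne_zero_of_dvd hN hMN)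
    omega
  · rw [coeff_tS k hN hMN]; exact one_ne_zero

theorem transcendental_jd {N : ℕ} (hN : N ≠ 0) : Transcendental k (S28.jd k N) := by
  refine transcendental_of_coeff k (n := -(N : ℤ)) ?_ ?_
  · have := Nat.pos_of_ne_zero hN
    omega
  · rw [coeff_jd k hN]; exact one_ne_zero

theorem xq_mem {M : ℕ} [NeZero M] (hM : M = 2 ∨ M = 3) (hMk : (M : k) ≠ 0) :
    xq M k ∈ modularFunctionFieldC k M := by
  rcases hM with rfl | rfl
  · simpa [xq] using xq2_mem (k := k) (by exact_mod_cast hMk)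
  · simpa [xq] using xq3_mem (k := k) (by exact_mod_cast hMk)

theorem jd_mem_full {N d : ℕ} (hN : N ≠ 0) (hd : d ∣ N) :
    S28.jd k d ∈ modularFunctionFieldFullC k N := by
  have hd0 : d ≠ 0 := by
    rintro rfl
    exact hN (Nat.eq_zero_of_zero_dvd hd)
  haveI : NeZero d := ⟨hd0⟩
  rw [S28.jd, S28.Vq_eq]
  exact jqModCd_mem_full k N hd

/-- `t ∈ k(j(q^d) : d ∣ N)`. -/
theorem tS_mem_full {M N : ℕ} (hM : M = 2 ∨ M = 3) (hMk : (M : k) ≠ 0) (hN : N ≠ 0)
    (hMN : M ∣ N) : tS M N k ∈ modularFunctionFieldFullC k N := by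
  have hM0 : M ≠ 0 := by rcases hM with rfl | rfl <;> norm_num
  haveI : NeZero M := ⟨hM0⟩
  haveI : NeZero (N / M) := ⟨div_ne_zero_of_dvd hN hMN⟩
  have h1 : tS M N k ∈ (modularFunctionFieldC k M).map (qExpandAlgHomC k (N / M)) := by
    rw [IntermediateField.mem_map]
    exact ⟨xq M k, xq_mem k hM hMk, by rw [qExpandAlgHomC_apply, tS, S28.Vq_eq]⟩
  have h2 : (modularFunctionFieldC k M).map (qExpandAlgHomC k (N / M))
      ≤ modularFunctionFieldFullC k N := by
    rw [modularFunctionFieldC, IntermediateField.adjoin_map, IntermediateField.adjoin_le_iff]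
    rintro _ ⟨x, hx, rfl⟩
    rcases hx with rfl | hx
    · have := jd_mem_full k hN (Nat.div_dvd_of_dvd hMN)
      rwa [S28.jd, S28.Vq_eq] at this
    · rw [Set.mem_singleton_iff] at hx
      subst hx
      have := jd_mem_full k hN (dvd_refl N)
      rw [← Vq_jM k hN hMN, S28.Vq_eq] at this
      exact this
  exact h2 h1

end Field

/-- `j(q^d) ∈ FL N`. -/
theorem jd_mem_bar {N d : ℕ} (hN : N ≠ 0) (hd : d ∣ N) :
    S28.jd Qb d ∈ modularFunctionFieldBar N := by
  have h : S28.jd ℚ d ∈ modularFunctionFieldFull N := jd_mem_full ℚ hN hd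
  have h2 := coeffEmb_mem_laurentBaseChange Qb h
  rwa [coeffEmb, coeffMap_jd] at h2

/-- `t ∈ FL N`. -/
theorem tS_mem_bar {M N : ℕ} (hM : M = 2 ∨ M = 3) (hN : N ≠ 0) (hMN : M ∣ N) :
    tS M N Qb ∈ modularFunctionFieldBar N := by
  have h : tS M N ℚ ∈ modularFunctionFieldFull N :=
    tS_mem_full ℚ hM (by rcases hM with rfl | rfl <;> norm_num) hN hMN
  have h2 := coeffEmb_mem_laurentBaseChange Qb h
  rwa [coeffEmb, coeffMap_tS] at h2

/-- the series of `S24.jF N` is `j(q)`. -/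
theorem coe_jF (N : ℕ) : ((S24.jF N : FL N) : LaurentSeries Qb) = S28.jd Qb 1 := by
  show S24.jBarSeries 1 = _
  rw [S24.jBarSeries, coeffEmb, coeffMap_qExpand, ← jqModC_rat, coeffMap_jqModC, S28.jd, S28.Vq_eq]

end Fermat.Agent.INJ.Inst

end
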