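import Fermat.Agent.INJ.Inst.DescentPlaces
import Fermat.Agent.INJ.Inst.DescentDeg
import Fermat.Agent.S18.Glue2

/-!
# INJ / Inst / I-8 (d): Claim K at the levels `lcm(N,2)`, `lcm(N,3)` implies Claim K at level `N`
-/

set_option autoImplicit false
set_option synthInstance.maxHeartbeats 400000
set_option linter.style.haveILetI false

noncomputable section

namespace Fermat.Agent.INJ.Inst.Descent

open AlgebraicCurve IntermediateField ModularCurve Fermat.Agent.S24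

theorem exists_pow_of_coprime {F : Type*} [Field F] (u : F) (m a b : ℕ) (hm : m ≠ 0)
    (hab : Nat.Coprime a b) (ha : ∃ g : F, g ^ m = u ^ a) (hb : ∃ g : F, g ^ m = u ^ b) :
    ∃ g : F, g ^ m = u := by
  rcases eq_or_ne u 0 with rfl | hu
  · exact ⟨0, zero_pow hm⟩
  obtain ⟨g₁, hg₁⟩ := ha
  obtain ⟨g₂, hg₂⟩ := hb
  have hbez : (a : ℤ) * Nat.gcdA a b + (b : ℤ) * Nat.gcdB a b = 1 := by
    have := Nat.gcd_eq_gcd_ab a b
    rw [hab.gcd_eq_one] at this
    exact_mod_cast this.symm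
  refine ⟨g₁ ^ (Nat.gcdA a b) * g₂ ^ (Nat.gcdB a b), ?_⟩
  rw [mul_pow, ← zpow_natCast, ← zpow_natCast, ← zpow_mul, ← zpow_mul, mul_comm _ (m : ℤ),
    mul_comm _ (m : ℤ), zpow_mul, zpow_mul, zpow_natCast, zpow_natCast, hg₁, hg₂, ← zpow_natCast,
    ← zpow_natCast, ← zpow_mul, ← zpow_mul, ← zpow_add₀ hu, hbez, zpow_one]

/-- one step: Claim K at level `N'`, `N ∣ N'`, shows that `u ^ [F_N' : F_N]` is an `m`-th power. -/
theorem claimK_step {N N' : ℕ} [NeZero N] [NeZero N'] (hNN' : N ∣ N') (ℓ : ℕ)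
    (A : ValuationSubring S18.Qb) (hK : S18.Stmt_ClaimK_at N' ℓ A)
    (m : ℕ) (hm : ¬ ℓ ∣ m) (y₁ y₂ : LaurentSeries A)
    (h₁ : coeffMap A.subtype y₁ ∈ modularFunctionFieldBar N)
    (h₂ : coeffMap A.subtype y₂ ∈ modularFunctionFieldBar N)
    (heq : coeffMap (IsLocalRing.residue A) y₁ = coeffMap (IsLocalRing.residue A) y₂)
    (hne : coeffMap (IsLocalRing.residue A) y₁ ≠ 0)
    (hmem : coeffMap (IsLocalRing.residue A) y₁ ∈
      modularFunctionFieldFullC (IsLocalRing.ResidueField A) N)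
    (hdiv : ∀ P : Place S18.Qb (modularFunctionFieldBar N),
      (m : ℤ) ∣ P.ord ((⟨_, h₁⟩ : modularFunctionFieldBar N) / ⟨_, h₂⟩)) :
    ∃ g : modularFunctionFieldBar N, g ^ m = ((⟨_, h₁⟩ : modularFunctionFieldBar N) / ⟨_, h₂⟩) ^
      relfinrank (modularFunctionFieldBar N) (modularFunctionFieldBar N') := by
  have hle := bar_le hNN'
  letI : Algebra (modularFunctionFieldBar N) (modularFunctionFieldBar N') :=
    (IntermediateField.inclusion hle).toRingHom.toAlgebra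
  haveI : IsScalarTower S18.Qb (modularFunctionFieldBar N) (modularFunctionFieldBar N') :=
    IsScalarTower.of_algebraMap_eq (fun x => rfl)
  obtain ⟨g, hg⟩ := hK m hm y₁ y₂ (hle h₁) (hle h₂) heq hne
    (full_degeneracyC_le _ hNN' hmem) (fun P' => by
      have h := places_dvd (K := S18.Qb) (F' := modularFunctionFieldBar N') (m : ℤ) _ hdiv P'
      rw [map_div₀] at h
      exact h)
  exact exists_pow_eq_pow_relfinrank hle m _ g (by
    have := congrArg Subtype.val hg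
    simpa using this)

/-- **Descent**: Claim K at the auxiliary levels implies Claim K at level `N`. -/
theorem claimK_descent (N : ℕ) [NeZero N] (ℓ : ℕ) [Fact ℓ.Prime] (A : ValuationSubring S18.Qb)
    (h : ∀ M : ℕ, M = 2 ∨ M = 3 → M ≠ ℓ → S18.Stmt_ClaimK_at (N.lcm M) ℓ A) :
    S18.Stmt_ClaimK_at N ℓ A := by
  intro m hm y₁ y₂ h₁ h₂ heq hne hmem hdiv
  have hm0 : m ≠ 0 := by
    rintro rfl
    exact hm (dvd_zero _)
  haveI h2ne : NeZero (N.lcm 2) := ⟨Nat.lcm_ne_zero (NeZero.ne N) two_ne_zero⟩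
  haveI h3ne : NeZero (N.lcm 3) := ⟨Nat.lcm_ne_zero (NeZero.ne N) three_ne_zero⟩
  have hd2 := relfinrank_lcm_dvd N Nat.prime_two
  have hd3 := relfinrank_lcm_dvd N Nat.prime_three
  have hself : ∃ g : modularFunctionFieldBar N,
      g ^ m = ((⟨_, h₁⟩ : modularFunctionFieldBar N) / ⟨_, h₂⟩) ^ m := ⟨_, rfl⟩
  by_cases hl2 : ℓ = 2
  · have s3 := claimK_step (Nat.dvd_lcm_left N 3) ℓ A (h 3 (Or.inr rfl) (by omega)) m hm y₁ y₂ h₁ h₂
      heq hne hmem hdiv
    refine exists_pow_of_coprime _ m _ m hm0 ?_ s3 hself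
    refine Nat.Coprime.coprime_dvd_left hd3 ?_
    have : Nat.Coprime 2 m := (Nat.Prime.coprime_iff_not_dvd Nat.prime_two).2 (hl2 ▸ hm)
    exact Nat.Coprime.pow_left 2 this
  have s2 := claimK_step (Nat.dvd_lcm_left N 2) ℓ A (h 2 (Or.inl rfl) (Ne.symm hl2)) m hm y₁ y₂ h₁ h₂
      heq hne hmem hdiv
  by_cases hl3 : ℓ = 3
  · refine exists_pow_of_coprime _ m _ m hm0 ?_ s2 hself
    refine Nat.Coprime.coprime_dvd_left hd2 ?_
    exact (Nat.Prime.coprime_iff_not_dvd Nat.prime_three).2 (hl3 ▸ hm)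
  have s3 := claimK_step (Nat.dvd_lcm_left N 3) ℓ A (h 3 (Or.inr rfl) (Ne.symm hl3)) m hm y₁ y₂ h₁ h₂
      heq hne hmem hdiv
  refine exists_pow_of_coprime _ m _ _ hm0 ?_ s2 s3
  exact Nat.Coprime.coprime_dvd_left hd2 (Nat.Coprime.coprime_dvd_right hd3 (by norm_num))

end Fermat.Agent.INJ.Inst.Descent
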