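import Fermat.Agent.INJ.All
import Fermat.Agent.INJ.Inst.Basic
import Fermat.Agent.INJ.Inst.ChartS
import Fermat.Agent.INJ.Inst.Descent

/-!
# INJ / Inst : final assembly.  Claim K at the levels divisible by `M ∈ {2, 3}`, then at all levels.
-/

set_option autoImplicit false
set_option synthInstance.maxHeartbeats 400000

noncomputable section

namespace Fermat.Agent.INJ.Inst

open AlgebraicCurve ModularCurve IntermediateField Polynomial
open Fermat.Agent

/-- transcendence passes to the subfield. -/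
theorem Final_transcendental {N : ℕ} (t : FL N) (h : Transcendental Qb (t : LaurentSeries Qb)) :
    Transcendental Qb t := by
  intro halg
  apply h
  exact IsAlgebraic.algHom (modularFunctionFieldBar N).val halg

theorem Final_transcendental_inv {K F : Type*} [Field K] [Field F] [Algebra K F] {t : F}
    (h : Transcendental K t) : Transcendental K t⁻¹ := by
  intro halg
  apply h
  have := halg.inv
  rwa [inv_inv] at this

/-- [FIN] Claim K at the levels divisible by `M`. -/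
theorem stmt_ClaimKM (hG : Stmt_ExGauss) (hCT : Stmt_ChartT) (hBT : Stmt_BranchT)
    (hLP : Stmt_LocPow) (hAR : Stmt_ArchD) : Stmt_ClaimKM := by
  intro M N _ ℓ _ hM hMN hℓN A hA m hm y₁ y₂ h₁ h₂ he hne _ hdiv
  obtain ⟨L, D, hD⟩ := hG N ℓ A hA
  have hN0 : N ≠ 0 := NeZero.ne N
  have htmem : tS M N Qb ∈ modularFunctionFieldBar N := tS_mem_bar hM hN0 hMN
  obtain ⟨t, ht⟩ : ∃ t : FL N, (t : LaurentSeries Qb) = tS M N Qb := ⟨⟨_, htmem⟩, rfl⟩
  have hC : Chart D t := hCT M N ℓ hM hMN hℓN A hA L D hD t ht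
  have hC' : Chart D t⁻¹ := stmt_ChartInv _ _ _ _ D t hC
  obtain ⟨hB, hB'⟩ := hBT M N ℓ hM hMN hℓN A hA L D hD t ht
  have hArch : Arch D := hAR N ℓ A hA L D hD
  obtain ⟨h1O, h1r⟩ := hD.rd y₁ h₁
  obtain ⟨h2O, h2r⟩ := hD.rd y₂ h₂
  have h2ne : D.rd (⟨_, h₂⟩ : FL N) ≠ 0 := by
    intro h0
    apply hne
    rw [he, ← h2r, h0]
    rfl
  have h12 : D.rd (⟨_, h₁⟩ : FL N) = D.rd (⟨_, h₂⟩ : FL N) :=
    Subtype.ext (h1r.trans (he.trans h2r.symm))
  have hu : D.rd ((⟨_, h₁⟩ : FL N) / ⟨_, h₂⟩) = 1 := by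
    rw [RedData.rd_div h1O h2ne, h12, div_self h2ne]
  have hm0 : 0 < m := by
    rcases Nat.eq_zero_or_pos m with rfl | h
    · exact absurd (dvd_zero ℓ) hm
    · exact h
  have hmk : (m : kA A) ≠ 0 :=
    CS.natCast_ne_zero A hA
      (Nat.Coprime.symm ((Nat.Prime.coprime_iff_not_dvd (Fact.out : ℓ.Prime)).2 hm))
  have htr : Transcendental Qb t :=
    Final_transcendental t (by rw [ht]; exact transcendental_tS Qb hN0 hMN)
  have hu0 : ((⟨_, h₁⟩ : FL N) / ⟨_, h₂⟩) ≠ 0 := by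
    intro h0
    rw [h0, RedData.rd_zero] at hu
    exact zero_ne_one hu
  have hL := hLP Qb (FL N) t _ m htr hC.fin hu0 hm0 hdiv
  have hL' := hLP Qb (FL N) t⁻¹ _ m (Final_transcendental_inv htr) hC'.fin hu0 hm0 hdiv
  exact all_INJ Qb (FL N) (kA A) L D t hC hC' hB hB' hArch _ m hm0 hmk hu hL hL'

/-- Claim K at all levels prime to `ℓ`. -/
theorem claimK_at_of (h : Stmt_ClaimKM) (N : ℕ) [NeZero N] (ℓ : ℕ) [Fact ℓ.Prime] (hℓN : ¬ ℓ ∣ N)
    (A : ValuationSubring Qb) (hA : A.LiesOverPrime ℓ) : S18.Stmt_ClaimK_at N ℓ A := by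
  apply Descent.claimK_descent N ℓ A
  intro M hM hMℓ
  have hM0 : M ≠ 0 := by rcases hM with rfl | rfl <;> norm_num
  have : NeZero (N.lcm M) := ⟨Nat.lcm_ne_zero (NeZero.ne N) hM0⟩
  have hMp : M.Prime := by rcases hM with rfl | rfl <;> norm_num
  refine h M (N.lcm M) ℓ hM (Nat.dvd_lcm_right N M) ?_ A hA
  intro hd
  have hℓ : ℓ.Prime := Fact.out
  have h1 : ℓ ∣ N * M := hd.trans (Nat.lcm_dvd_mul N M)
  rcases hℓ.dvd_mul.1 h1 with h2 | h2
  · exact hℓN h2
  · exact hMℓ ((Nat.prime_dvd_prime_iff_eq hℓ hMp).1 h2).symm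

end Fermat.Agent.INJ.Inst

end
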