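import Fermat.Agent.INJ.Defs
import Fermat.Prelude.Def_ModularCurve_LaurentCoeff

/-!
# INJ / instantiation [G], abstract part: the Gauss valuation ring of a subfield of `K((q))`

`A` a valuation subring of `K`, `F ⊆ K((q))` an intermediate field such that every nonzero element of
`F` is a constant times a ratio of two `A`-integral series with nonzero reduction (`SatF`).  Then
`O = {x ∈ F : x g = f, f g ∈ A((q)), gbar ≠ 0}` is a valuation subring of `F`, and together with the
reduction map `x ↦ fbar / gbar` it forms a `RedData`.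
-/

set_option autoImplicit false

noncomputable section

namespace Fermat.Agent.INJ.Inst.Gauss

open ModularCurve

variable {K : Type} [Field K]

/-- coefficientwise inclusion `A((q)) → K((q))`. -/
abbrev inc (A : ValuationSubring K) : LaurentSeries A →+* LaurentSeries K := coeffMap A.subtype

variable {A : ValuationSubring K} {k : Type} [Field k] (res : A →+* k)

/-- coefficientwise reduction `A((q)) → k((q))`. -/
abbrev rho : LaurentSeries A →+* LaurentSeries k := coeffMap res

theorem inc_injective (A : ValuationSubring K) : Function.Injective (inc A) := by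
  intro x y h
  ext n
  have := congrArg (fun z => HahnSeries.coeff z n) h
  simpa using this

/-- `x = f / g` with `gbar ≠ 0`. -/
def IsRatio (x : LaurentSeries K) (f g : LaurentSeries A) : Prop :=
  rho res g ≠ 0 ∧ x * inc A g = inc A f

variable {res}

theorem IsRatio.add {x x' : LaurentSeries K} {f g f' g' : LaurentSeries A} (h : IsRatio res x f g)
    (h' : IsRatio res x' f' g') : IsRatio res (x + x') (f * g' + f' * g) (g * g') := by
  refine ⟨by rw [map_mul]; exact mul_ne_zero h.1 h'.1, ?_⟩
  rw [map_mul, map_add, map_mul, map_mul, ← h.2, ← h'.2]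
  ring

theorem IsRatio.mul {x x' : LaurentSeries K} {f g f' g' : LaurentSeries A} (h : IsRatio res x f g)
    (h' : IsRatio res x' f' g') : IsRatio res (x * x') (f * f') (g * g') := by
  refine ⟨by rw [map_mul]; exact mul_ne_zero h.1 h'.1, ?_⟩
  rw [map_mul, map_mul, ← h.2, ← h'.2]
  ring

theorem IsRatio.neg {x : LaurentSeries K} {f g : LaurentSeries A} (h : IsRatio res x f g) :
    IsRatio res (-x) (-f) g := by
  refine ⟨h.1, ?_⟩
  rw [map_neg, ← h.2]
  ring

theorem isRatio_inc (y : LaurentSeries A) : IsRatio res (inc A y) y 1 := by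
  refine ⟨by rw [map_one]; exact one_ne_zero, ?_⟩
  rw [map_one, mul_one]

theorem isRatio_zero : IsRatio res (0 : LaurentSeries K) 0 1 := by
  have := isRatio_inc (res := res) 0
  rwa [map_zero] at this

theorem isRatio_one : IsRatio res (1 : LaurentSeries K) 1 1 := by
  have := isRatio_inc (res := res) 1
  rwa [map_one] at this

theorem inc_ne_zero_of_rho {g : LaurentSeries A} (h : rho res g ≠ 0) : inc A g ≠ 0 := by
  intro h0
  apply h
  have : g = 0 := inc_injective A (by rw [h0, map_zero])
  rw [this, map_zero]

theorem IsRatio.inv {x : LaurentSeries K} {f g : LaurentSeries A} (h : IsRatio res x f g)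
    (hf : rho res f ≠ 0) : IsRatio res x⁻¹ g f := by
  refine ⟨hf, ?_⟩
  have hf0 := inc_ne_zero_of_rho hf
  have hx : x ≠ 0 := by
    rintro rfl
    have h2 := h.2
    rw [zero_mul] at h2
    exact hf0 h2.symm
  rw [← h.2, ← mul_assoc, inv_mul_cancel₀ hx, one_mul]

theorem IsRatio.unique {x : LaurentSeries K} {f g f' g' : LaurentSeries A} (h : IsRatio res x f g)
    (h' : IsRatio res x f' g') : rho res f / rho res g = rho res f' / rho res g' := by
  rw [div_eq_div_iff h.1 h'.1, ← map_mul, ← map_mul]
  congr 1
  apply inc_injective A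
  rw [map_mul, map_mul, ← h.2, ← h'.2]
  ring

variable (res)

open Classical in
/-- the reduction of a ratio (junk value `0`). -/
def red (x : LaurentSeries K) : LaurentSeries k :=
  if h : ∃ f g, IsRatio res x f g then rho res h.choose / rho res h.choose_spec.choose else 0

variable {res}

theorem red_eq {x : LaurentSeries K} {f g : LaurentSeries A} (h : IsRatio res x f g) :
    red res x = rho res f / rho res g := by
  have hex : ∃ f g, IsRatio res x f g := ⟨f, g, h⟩
  rw [red, dif_pos hex]
  exact hex.choose_spec.choose_spec.unique h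

/-- constants. -/
theorem inc_single (a : A) :
    inc A (HahnSeries.single 0 a) = algebraMap K (LaurentSeries K) (a : K) := by
  rw [algebraMap_laurentSeries_eq_single, coeffMap_single]
  rfl

theorem rho_single (a : A) :
    rho res (HahnSeries.single 0 a) = algebraMap k
      (LaurentSeries k) (res a) := by
  rw [algebraMap_laurentSeries_eq_single, coeffMap_single]

variable (res) (F : IntermediateField K (LaurentSeries K))

/-- every nonzero element of `F` is a constant times a ratio of primitive integral series. -/
def SatF : Prop :=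
  ∀ x : F, x ≠ 0 → ∃ (α : K) (f g : LaurentSeries A), α ≠ 0 ∧ rho res f ≠ 0 ∧ rho res g ≠ 0 ∧
    (x : LaurentSeries K) * inc A g = algebraMap K (LaurentSeries K) α * inc A f

variable {res F}

/-- the Gauss valuation ring. -/
def gaussO (h : SatF res F) : ValuationSubring F where
  carrier := {x | ∃ f g, IsRatio res (x : LaurentSeries K) f g}
  mul_mem' := by
    rintro x y ⟨f, g, h1⟩ ⟨f', g', h2⟩
    exact ⟨_, _, h1.mul h2⟩
  one_mem' := ⟨1, 1, isRatio_one⟩
  add_mem' := by
    rintro x y ⟨f, g, h1⟩ ⟨f', g', h2⟩
    exact ⟨_, _, h1.add h2⟩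
  zero_mem' := ⟨0, 1, isRatio_zero⟩
  neg_mem' := by
    rintro x ⟨f, g, h1⟩
    exact ⟨_, _, h1.neg⟩
  mem_or_inv_mem' := by
    intro x
    by_cases hx : x = 0
    · left
      rw [hx]
      exact ⟨0, 1, isRatio_zero⟩
    obtain ⟨α, f, g, hα, hf, hg, he⟩ := h x hx
    rcases A.mem_or_inv_mem α with hα' | hα'
    · left
      refine ⟨HahnSeries.single 0 ⟨α, hα'⟩ * f, g, hg, ?_⟩
      rw [map_mul, inc_single, he]
    · right
      refine ⟨HahnSeries.single 0 ⟨α⁻¹, hα'⟩ * g, f, hf, ?_⟩
      have hx' : (x : LaurentSeries K) ≠ 0 := fun h0 => hx (Subtype.ext h0)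
      have hα0 : algebraMap K (LaurentSeries K) α ≠ 0 := by
        rw [Ne, map_eq_zero]; exact hα
      rw [map_mul, inc_single]
      show (x : LaurentSeries K)⁻¹ * inc A f = algebraMap K (LaurentSeries K) α⁻¹ * inc A g
      rw [map_inv₀]
      field_simp
      rw [mul_comm, ← he, mul_comm]

theorem mem_gaussO (h : SatF res F) (x : F) :
    x ∈ gaussO h ↔ ∃ f g, IsRatio res (x : LaurentSeries K) f g := Iff.rfl

/-- the reduction homomorphism. -/
def redHom (h : SatF res F) : gaussO h →+* LaurentSeries k where
  toFun x := red res ((x : F) : LaurentSeries K)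
  map_one' := by
    show red res (1 : LaurentSeries K) = 1
    rw [red_eq isRatio_one, map_one, div_one]
  map_zero' := by
    show red res (0 : LaurentSeries K) = 0
    rw [red_eq isRatio_zero, map_zero, zero_div]
  map_add' := by
    rintro ⟨x, f, g, h1⟩ ⟨y, f', g', h2⟩
    show red res ((x : LaurentSeries K) + (y : LaurentSeries K)) = red res x + red res y
    rw [red_eq h1, red_eq h2, red_eq (h1.add h2), map_add, map_mul, map_mul, map_mul,
      div_add_div _ _ h1.1 h2.1]
    congr 1
    ring
  map_mul' := by
    rintro ⟨x, f, g, h1⟩ ⟨y, f', g', h2⟩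
    show red res ((x : LaurentSeries K) * (y : LaurentSeries K)) = red res x * red res y
    rw [red_eq h1, red_eq h2, red_eq (h1.mul h2), map_mul, map_mul, div_mul_div_comm]

theorem redHom_apply (h : SatF res F) (x : gaussO h) :
    redHom h x = red res ((x : F) : LaurentSeries K) := rfl

/-- the residue field, as a subfield of `k((q))`. -/
def gaussL (hres : Function.Surjective res) (h : SatF res F) :
    IntermediateField k (LaurentSeries k) :=
  Subalgebra.toIntermediateField
    { (redHom h).rangeS with
      algebraMap_mem' := by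
        intro c
        obtain ⟨a, rfl⟩ := hres c
        have hr : IsRatio res (algebraMap K (LaurentSeries K) (a : K)) (HahnSeries.single 0 a) 1 := by
          have := isRatio_inc (res := res) (HahnSeries.single 0 a)
          rwa [inc_single] at this
        refine ⟨⟨algebraMap K F (a : K), _, _, hr⟩, ?_⟩
        show red res (algebraMap K (LaurentSeries K) (a : K)) = _
        rw [red_eq hr, map_one, div_one, rho_single] }
    (by
      rintro _ ⟨⟨x, f, g, h1⟩, rfl⟩
      show (red res (x : LaurentSeries K))⁻¹ ∈ (redHom h).rangeS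
      by_cases hf : rho res f = 0
      · rw [red_eq h1, hf, zero_div, inv_zero]
        exact zero_mem _
      · refine ⟨⟨x⁻¹, g, f, h1.inv hf⟩, ?_⟩
        show red res (x : LaurentSeries K)⁻¹ = _
        rw [red_eq h1, red_eq (h1.inv hf), inv_div])

theorem redHom_mem (hres : Function.Surjective res) (h : SatF res F) (x : gaussO h) :
    redHom h x ∈ gaussL hres h :=
  ⟨x, rfl⟩

theorem exists_of_mem_gaussL (hres : Function.Surjective res) (h : SatF res F)
    {y : LaurentSeries k} (hy : y ∈ gaussL hres h) : ∃ x : gaussO h, redHom h x = y := hy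

theorem isUnit_of_res_ne_zero (hres : Function.Surjective res) {a : A} (ha : res a ≠ 0) :
    IsUnit a := by
  by_contra hnu
  have h1 : RingHom.ker res = IsLocalRing.maximalIdeal A :=
    IsLocalRing.eq_maximalIdeal (RingHom.ker_isMaximal_of_surjective res hres)
  have h2 : a ∈ RingHom.ker res := by
    rw [h1]; exact (IsLocalRing.mem_maximalIdeal _).2 hnu
  exact ha h2

/-- the Gauss reduction data. -/
def gaussData (hres : Function.Surjective res) (h : SatF res F) :
    RedData K F k (gaussL hres h) where
  A := A
  O := gaussO h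
  rA := res
  rO := (redHom h).codRestrict (gaussL hres h) (redHom_mem hres h)
  rA_surj := hres
  rO_surj := by
    rintro ⟨y, hy⟩
    obtain ⟨x, rfl⟩ := exists_of_mem_gaussL hres h hy
    exact ⟨x, rfl⟩
  mem_iff := by
    intro a
    constructor
    · rintro ⟨f, g, hg, he⟩
      have he' : algebraMap K (LaurentSeries K) a * inc A g = inc A f := he
      obtain ⟨n, hn⟩ : ∃ n, res (g.coeff n) ≠ 0 := by
        by_contra hno
        push Not at hno
        apply hg
        ext n
        simpa using hno n
      have hu : IsUnit (g.coeff n) := isUnit_of_res_ne_zero hres hn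
      obtain ⟨u, hu⟩ := hu
      have h1 := congrArg (fun z => HahnSeries.coeff z n) he'
      simp only [algebraMap_laurentSeries_eq_single, HahnSeries.coeff_single_zero_mul,
        coeffMap_coeff] at h1
      have h2 : a = ((f.coeff n * (u⁻¹ : Aˣ) : A) : K) := by
        have h3 : ((g.coeff n * (u⁻¹ : Aˣ) : A) : K) = 1 := by
          rw [← hu, Units.mul_inv]; rfl
        push_cast at h3 ⊢
        have h1' : a * ((g.coeff n : A) : K) = ((f.coeff n : A) : K) := h1
        rw [← h1', mul_assoc, h3, mul_one]
      rw [h2]
      exact Subtype.mem _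
    · intro ha
      have := isRatio_inc (res := res) (HahnSeries.single 0 ⟨a, ha⟩)
      rw [inc_single] at this
      exact ⟨_, _, this⟩
  compat := by
    intro a ha h'
    apply Subtype.ext
    have hr := isRatio_inc (res := res) (HahnSeries.single 0 ⟨a, ha⟩)
    rw [inc_single] at hr
    show red res (algebraMap K (LaurentSeries K) a) = _
    rw [red_eq hr, map_one, div_one, rho_single]
    rfl
  unram := by
    intro x hx
    obtain ⟨α, f, g, hα, hf, hg, he⟩ := h x hx
    have hα0 : algebraMap K (LaurentSeries K) α ≠ 0 := by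
      rw [Ne, map_eq_zero]; exact hα
    have hr : IsRatio res ((x * algebraMap K F α⁻¹ : F) : LaurentSeries K) f g := by
      refine ⟨hg, ?_⟩
      show (x : LaurentSeries K) * algebraMap K (LaurentSeries K) α⁻¹ * inc A g = inc A f
      rw [mul_right_comm, he, map_inv₀, mul_right_comm, mul_inv_cancel₀ hα0, one_mul]
    exact ⟨α⁻¹, inv_ne_zero hα, ⟨f, g, hr⟩, ⟨g, f, hr.inv hf⟩⟩

theorem gaussData_rd (hres : Function.Surjective res) (h : SatF res F) {x : F}
    {f g : LaurentSeries A} (hr : IsRatio res (x : LaurentSeries K) f g) :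
    x ∈ (gaussData hres h).O ∧
      (((gaussData hres h).rd x : gaussL hres h) : LaurentSeries k) =
        rho res f / rho res g := by
  have hx : x ∈ (gaussData hres h).O := ⟨f, g, hr⟩
  refine ⟨hx, ?_⟩
  rw [RedData.rd_of_mem hx]
  exact red_eq hr

/-- **Existence of the Gauss reduction data.** -/
theorem exists_gauss (hres : Function.Surjective res) (h : SatF res F) :
    ∃ (L : IntermediateField k
        (LaurentSeries k))
      (D : RedData K F k L),
      D.A = A ∧ (∀ a : K, ∀ ha : a ∈ A, D.ra a = res ⟨a, ha⟩) ∧
      (∀ (x : F) (f g : LaurentSeries A), rho res g ≠ 0 → (x : LaurentSeries K) * inc A g = inc A f →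
        x ∈ D.O ∧ ((D.rd x : L) : LaurentSeries k) =
          rho res f / rho res g) ∧
      (∀ x : F, x ∈ D.O → ∃ f g : LaurentSeries A, rho res g ≠ 0 ∧
        (x : LaurentSeries K) * inc A g = inc A f) ∧
      ∀ (y : LaurentSeries A) (hy : inc A y ∈ F), (⟨_, hy⟩ : F) ∈ D.O ∧
        ((D.rd ⟨_, hy⟩ : L) : LaurentSeries k) = rho res y := by
  refine ⟨gaussL hres h, gaussData hres h, rfl,
    fun a ha => RedData.ra_of_mem (D := gaussData hres h) ha,
    fun x f g hg he => gaussData_rd hres h ⟨hg, he⟩, fun x hx => hx, fun y hy => ?_⟩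
  have := gaussData_rd hres h (x := ⟨_, hy⟩) (isRatio_inc y)
  rwa [map_one, div_one] at this

end Fermat.Agent.INJ.Inst.Gauss
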