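import Fermat.Agent.INJ.Inst.Interface
import Fermat.Agent.INJ.Inst.GaussAbs
import Fermat.Agent.ES.Mid.IntRep

/-!
# INJ / Inst [G] : existence of the Gauss reduction datum on `FL N`
-/

set_option autoImplicit false
set_option synthInstance.maxHeartbeats 400000

noncomputable section

namespace Fermat.Agent.INJ.Inst

open ModularCurve

theorem satF (N : ℕ) [NeZero N] (A : ValuationSubring Qb) :
    Gauss.SatF (IsLocalRing.residue A) (modularFunctionFieldBar N) := by
  intro x hx
  obtain ⟨c, y₁, y₂, θ₁, θ₂, hc, h1, h2, he, hy1, hy2⟩ := ES.Mid.INT.intRep' N A x hx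
  refine ⟨c, y₁, y₂, hc, hy1, hy2, ?_⟩
  have := congrArg Subtype.val he
  show (x : LaurentSeries Qb) * coeffMap A.subtype y₂ =
    algebraMap Qb (LaurentSeries Qb) c * coeffMap A.subtype y₁
  rw [h1, h2]
  exact this

/-- **[G]**, strong form (with the description of `O` and of the reduction of ratios). -/
theorem exists_gauss_strong (N : ℕ) [NeZero N] (A : ValuationSubring Qb) :
    ∃ (L : IntermediateField (kA A) (LaurentSeries (kA A))) (D : RedData Qb (FL N) (kA A) L),
      IsGauss N A L D ∧
      (∀ (x : FL N) (f g : LaurentSeries A), coeffMap (IsLocalRing.residue A) g ≠ 0 →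
        (x : LaurentSeries Qb) * coeffMap A.subtype g = coeffMap A.subtype f →
        x ∈ D.O ∧ ((D.rd x : L) : LaurentSeries (kA A)) =
          coeffMap (IsLocalRing.residue A) f / coeffMap (IsLocalRing.residue A) g) ∧
      (∀ x : FL N, x ∈ D.O → ∃ f g : LaurentSeries A, coeffMap (IsLocalRing.residue A) g ≠ 0 ∧
        (x : LaurentSeries Qb) * coeffMap A.subtype g = coeffMap A.subtype f) := by
  obtain ⟨L, D, h1, h2, h3, h4, h5⟩ :=
    Gauss.exists_gauss (res := IsLocalRing.residue A) IsLocalRing.residue_surjective (satF N A)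
  exact ⟨L, D, ⟨h1, h2, h5⟩, h3, h4⟩

/-- **[G]**. -/
theorem stmt_ExGauss : Stmt_ExGauss := by
  intro N _ ℓ _ A _
  obtain ⟨L, D, h, -, -⟩ := exists_gauss_strong N A
  exact ⟨L, D, h⟩

end Fermat.Agent.INJ.Inst
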