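import Fermat.Agent.INJ.Inst.Interface

/-!
# INJ / Inst / RA2 : ramification of `t` over `s`, `M = 2` (pure algebra)
-/

set_option autoImplicit false

namespace Fermat.Agent.INJ.Inst

open AlgebraicCurve Polynomial

/-- positive integers with `a + b = 1`, `0 < a`, `0 ≤ b`. -/
theorem RA2_eq_one_of_mul_dvd {n a : ℤ} (hn : 0 < n) (ha : 0 < a) (h : n * a ∣ n) : a = 1 := by
  have h1 : n * a ≤ n := Int.le_of_dvd hn h
  nlinarith

theorem stmt_RamAlg2 : Stmt_RamAlg2 := by
  intro K F _ _ _ _ s t ht hst hJ v c hc0 hc64 hv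
  have hV := S24.isVal_ord v
  obtain ⟨y, hy⟩ : ∃ y : F, y = t - algebraMap K F c := ⟨_, rfl⟩
  rw [← hy] at hv ⊢
  have hty : t = y + algebraMap K F c := by rw [hy]; ring
  have hy0 : y ≠ 0 := by
    intro h
    apply ht
    rw [h, zero_add] at hty
    rw [hty]
    exact isAlgebraic_algebraMap c
  -- `t - a` is a unit at `v` for `a ≠ c`
  have hunit : ∀ a : K, a ≠ c → t - algebraMap K F a ≠ 0 ∧ v.ord (t - algebraMap K F a) = 0 := by
    intro a ha
    have h := hV.aeval_of_coeff_zero_ne_zero hy0 hv (X + C (c - a))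
      (by simpa using sub_ne_zero.2 ha.symm)
    have e : aeval y (X + C (c - a)) = t - algebraMap K F a := by
      rw [map_add, aeval_X, aeval_C, map_sub, hty]; ring
    rwa [e] at h
  have h64 : t - 64 ≠ 0 ∧ v.ord (t - 64) = 0 := by
    have h := hunit 64 hc64.symm
    rwa [map_ofNat] at h
  obtain ⟨c0, hc0def⟩ : ∃ c0 : K, c0 = (c - 48) ^ 3 / (c - 64) := ⟨_, rfl⟩
  have hc64' : c - 64 ≠ 0 := sub_ne_zero.2 hc64
  have hc0mul : c0 * (c - 64) = (c - 48) ^ 3 := by rw [hc0def]; field_simp
  -- the key identity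
  obtain ⟨Q, hQ⟩ : ∃ Q : K[X], Q = X ^ 2 + C (3 * (c - 48)) * X + C (3 * (c - 48) ^ 2 - c0) :=
    ⟨_, rfl⟩
  have hQ0 : Q ≠ 0 := by
    intro h
    have h2 : Q.coeff 2 = 1 := by
      rw [hQ]
      simp only [coeff_add, coeff_X_pow, coeff_C_mul, coeff_X, coeff_C]
      norm_num
    rw [h] at h2
    simp at h2
  have hkey : (s - algebraMap K F c0) * (t - 64) = y * aeval y Q := by
    have e1 : algebraMap K F c0 * (algebraMap K F c - 64) = (algebraMap K F c - 48) ^ 3 := by
      have := congrArg (algebraMap K F) hc0mul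
      simpa [map_mul, map_sub, map_pow, map_ofNat] using this
    rw [sub_mul, hst, hQ]
    simp only [map_add, map_mul, map_pow, map_sub, aeval_X, aeval_C, map_ofNat]
    rw [hty]
    linear_combination (-1 : F) * e1
  obtain ⟨hR0, hRV⟩ := hV.aeval_of_ne_zero hy0 hv Q hQ0
  have hs0 : s - algebraMap K F c0 ≠ 0 := by
    intro h
    rw [h, zero_mul] at hkey
    exact mul_ne_zero hy0 hR0 hkey.symm
  have hord : v.ord (s - algebraMap K F c0) = v.ord y + (Q.rootMultiplicity 0 : ℤ) * v.ord y := by
    have h := congrArg v.ord hkey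
    rw [hV.map_mul _ _ hs0 h64.1, hV.map_mul _ _ hy0 hR0, h64.2, add_zero, hRV] at h
    exact h
  have hpos : 0 < v.ord (s - algebraMap K F c0) := by
    rw [hord]; positivity
  obtain ⟨hJ0, hJ1, hJ2⟩ := hJ c0 v hpos
  by_cases hz : c0 = 0
  · -- `c = 48`
    have hc48 : c = 48 := by
      rw [hz, zero_mul] at hc0mul
      have := pow_eq_zero_iff (n := 3) (by norm_num) |>.1 hc0mul.symm
      linear_combination this
    have h3 : v.ord (s - algebraMap K F c0) = 3 * v.ord y := by
      have e : (s - algebraMap K F c0) * (t - 64) = y ^ 3 := by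
        rw [hz, map_zero, sub_zero, hst, hy, hc48, map_ofNat]
      have h := congrArg v.ord e
      rw [hV.map_mul _ _ hs0 h64.1, h64.2, add_zero, hV.map_pow hy0] at h
      exact_mod_cast h
    have hd := hJ0 hz
    rw [h3] at hd
    exact RA2_eq_one_of_mul_dvd (by norm_num) hv hd
  · by_cases hz' : c0 = 1728
    · have hc72 : c = 72 := by
        rw [hz'] at hc0mul
        have h : c * (c - 72) ^ 2 = 0 := by linear_combination -hc0mul
        rcases mul_eq_zero.1 h with h | h
        · exact absurd h hc0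
        · have := pow_eq_zero_iff (n := 2) (by norm_num) |>.1 h
          linear_combination this
      have ht0 : t ≠ 0 ∧ v.ord t = 0 := by
        have h := hunit 0 hc0.symm
        rwa [map_zero, sub_zero] at h
      have h2 : v.ord (s - algebraMap K F c0) = 2 * v.ord y := by
        have e : (s - algebraMap K F c0) * (t - 64) = t * y ^ 2 := by
          rw [hz', sub_mul, hst, hy, hc72, map_ofNat, map_ofNat]; ring
        have h := congrArg v.ord e
        rw [hV.map_mul _ _ hs0 h64.1, h64.2, add_zero, hV.map_mul _ _ ht0.1 (pow_ne_zero _ hy0),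
          ht0.2, zero_add, hV.map_pow hy0] at h
        exact_mod_cast h
      have hd := hJ1 hz'
      rw [h2] at hd
      exact RA2_eq_one_of_mul_dvd (by norm_num) hv hd
    · have h1 := hJ2 hz hz'
      rw [hord] at h1
      have hm : (0 : ℤ) ≤ (Q.rootMultiplicity 0 : ℤ) * v.ord y := by positivity
      omega

end Fermat.Agent.INJ.Inst
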