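import Fermat.Agent.INJ.Inst.Interface
import Fermat.Agent.S24.Comb
import Fermat.Agent.S24.DegreeBound

/-!
# INJ / Inst : [RU] ramification indices divide the order of the monodromy, [RJ] ramification of
`FL N` over the `j`-line.
-/

set_option autoImplicit false

noncomputable section

namespace Fermat.Agent.INJ.Inst

open AlgebraicCurve ModularCurve IntermediateField Polynomial

theorem stmt_RamUnif : Stmt_RamUnif := by
  intro K F M _ _ _ _ _ _ _ w δ hw x _ I _ hn π U h hπ v hv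
  obtain ⟨i, m, hm, hφ⟩ := S24.exists_index_of_mem_zeroPlaces w δ hw x I hn π U v hv
  obtain ⟨f, hf0, hf1⟩ := S24.exists_ord_one v
  have hx0 : x ≠ 0 := by
    rintro rfl
    simp at hv
  have h1 : (U.s : ℤ) ∣ h * w (U.φ i f) := U.dvd i h (by rw [hπ]; rfl) f hf0
  rw [hφ f hf0, hf1, mul_one] at h1
  have h2 : (U.s : ℤ) = m * v.ord x := by rw [← U.w_x i, hφ x hx0]
  rw [h2, mul_comm (h : ℤ)] at h1
  exact (mul_dvd_mul_iff_left (by exact_mod_cast hm.ne')).1 h1

theorem RamJ_permAt_pow (N : ℕ) (c : Qb) :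
    (c = 0 → S24.permAt N c ^ 3 = 1) ∧ (c = 1728 → S24.permAt N c ^ 2 = 1) ∧
      (c ≠ 0 → c ≠ 1728 → S24.permAt N c ^ 1 = 1) := by
  refine ⟨fun h => ?_, fun h => ?_, fun h h' => ?_⟩
  · unfold S24.permAt
    rw [if_pos h]
    exact S24.toPerm_ST_cube N
  · have h0 : c ≠ 0 := by rw [h]; norm_num
    unfold S24.permAt
    rw [if_neg h0, if_pos h]
    exact S24.toPerm_S_sq N
  · unfold S24.permAt
    rw [if_neg h, if_neg h', pow_one]

theorem stmt_RamJ (h : Stmt_RamUnif) : Stmt_RamJ := by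
  intro N _ c v hv
  obtain ⟨U⟩ := S24.localUnif_finite N c
  obtain ⟨hfd, hfr⟩ := S24.finrank_FF_le N
  have : Fintype (S24.Cosets N) := Fintype.ofFinite _
  have hfdc : FiniteDimensional Qb⟮S24.jF N - algebraMap Qb (FL N) c⟯ (FL N) := by
    rw [S24.rh_adjoin_sub_algebraMap_eq]; exact hfd
  have hnc : Module.finrank Qb⟮S24.jF N - algebraMap Qb (FL N) c⟯ (FL N)
      ≤ Fintype.card (S24.Cosets N) := by
    rw [S24.rh_adjoin_sub_algebraMap_eq, ← Nat.card_eq_fintype_card]; exact hfr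
  have key := fun (e : ℕ) (he : S24.permAt N c ^ e = 1) =>
    h Qb (FL N) S24.MerGerm S24.MerGerm.ord S24.MerGerm.deriv S24.MerGerm.isDiffVal
      (S24.jF N - algebraMap Qb (FL N) c) (S24.Cosets N) hnc (S24.permAt N c) U e he v hv
  obtain ⟨p3, p2, p1⟩ := RamJ_permAt_pow N c
  refine ⟨fun h0 => by exact_mod_cast key 3 (p3 h0), fun h0 => by exact_mod_cast key 2 (p2 h0),
    fun h0 h1 => ?_⟩
  have := key 1 (p1 h0 h1)
  exact Int.eq_one_of_dvd_one hv.le (by exact_mod_cast this)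

end Fermat.Agent.INJ.Inst

end
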