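import Fermat.Agent.INJ.Inst.Interface

/-!
# INJ / Inst, package [RS] : transport of the ramification pattern by the Fricke involution.
-/

set_option autoImplicit false

noncomputable section

namespace Fermat.Agent.INJ.Inst

open AlgebraicCurve ModularCurve

/-- the series of `S24.jF N` is `j(q)`. -/
theorem RamS_jF_coe (N : ℕ) : ((S24.jF N : FL N) : LaurentSeries Qb) = S28.jd Qb 1 := by
  show S24.jBarSeries 1 = S28.jd Qb 1
  rw [S24.jBarSeries, S28.jd, S28.Vq_eq, coeffEmb, coeffMap_qExpand, ← jqModC_rat, coeffMap_jqModC]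

/-- transport of the ramification pattern along an automorphism. -/
theorem RamS_transport {K F : Type*} [Field K] [Field F] [Algebra K F] (W : F ≃ₐ[K] F) {s j : F}
    (hs : W s = j) (hj : JRam (K := K) j) : JRam (K := K) s := by
  intro c v hv
  have h1 : (W • v).ord (j - algebraMap K F c) = v.ord (s - algebraMap K F c) := by
    rw [← Place.ord_smul W v, map_sub, hs, W.commutes]
  rw [← h1] at hv ⊢
  exact hj c (W • v) hv

theorem stmt_RamS (hW : Stmt_Fricke) (hJ : Stmt_RamJ) : Stmt_RamS := by
  intro N _ s hs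
  obtain ⟨W, hWd⟩ := hW N
  have h1 : W s = S24.jF N := by
    refine hWd N dvd_rfl s (S24.jF N) hs ?_
    rw [Nat.div_self (Nat.pos_of_ne_zero (NeZero.ne N))]
    exact RamS_jF_coe N
  exact RamS_transport W h1 (hJ N)

end Fermat.Agent.INJ.Inst

end

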