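import Fermat.Agent.INJ.All
import Fermat.Agent.INJ.P16
import Fermat.Agent.INJ.Inst.Final
import Fermat.Agent.INJ.Inst.BranchT
import Fermat.Agent.INJ.Inst.ChartT
import Fermat.Agent.INJ.Inst.SepAdapter
import Fermat.Agent.INJ.Inst.DegLemma
import Fermat.Agent.INJ.Inst.Fricke
import Fermat.Agent.INJ.Inst.RamJ
import Fermat.Agent.INJ.Inst.RamS
import Fermat.Agent.INJ.Inst.RamAlg2
import Fermat.Agent.INJ.Inst.RamAlg3
import Fermat.Agent.INJ.Inst.Gauss
import Fermat.Agent.INJ.Inst.LocPow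
import Fermat.Agent.INJ.Inst.ArchD36

/-!
# INJ / Inst : assembly of the instantiation: Claim K, unconditionally.
-/

set_option autoImplicit false

namespace Fermat.Agent.INJ.Inst

theorem all_ChartS : Stmt_ChartS := stmt_ChartS_of_SepL stmt_SepL

theorem all_ChartT : Stmt_ChartT := stmt_ChartT all_ChartS all_ChartTower stmt_DegLemma

theorem all_RamS : Stmt_RamS := stmt_RamS stmt_Fricke (stmt_RamJ stmt_RamUnif)

theorem all_BranchT : Stmt_BranchT := stmt_BranchT all_ChartT all_RamS stmt_RamAlg2 stmt_RamAlg3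

theorem all_ClaimKM : Stmt_ClaimKM :=
  stmt_ClaimKM stmt_ExGauss all_ChartT all_BranchT stmt_LocPow AR36_stmt_ArchD

/-- **Claim K**, unconditionally. -/
theorem claimK_at (N : ℕ) [NeZero N] (ℓ : ℕ) [Fact ℓ.Prime] (hℓN : ¬ ℓ ∣ N)
    (A : ValuationSubring Qb) (hA : A.LiesOverPrime ℓ) : S18.Stmt_ClaimK_at N ℓ A :=
  claimK_at_of all_ClaimKM N ℓ hℓN A hA

end Fermat.Agent.INJ.Inst
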