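import Fermat.Agent.INJ.Inst.Interface
import Fermat.Agent.INJ.TameBranch

/-!
# INJ / Inst : [BC] the tame branch clause (adapter to `INJ.Tame.branch_clause`)
-/

set_option autoImplicit false

namespace Fermat.Agent.INJ.Inst

theorem stmt_BranchClause : Stmt_BranchClause := by
  intro K F _ _ _ _ _ t ht hfd S hunr z hz
  obtain ⟨m, hm, h⟩ := Tame.branch_clause ht S hunr
  exact ⟨m, hm, h z hz⟩

end Fermat.Agent.INJ.Inst
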