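import Fermat.Agent.INJ.Inst.Interface
import Fermat.Agent.INJ.TameBranch

/-!
# INJ / Inst : [LP] a function whose divisor is divisible by `m` is locally on the `t`-line an
`m`-th power times a unit (`Stmt_LocPow`)
-/

set_option autoImplicit false

namespace Fermat.Agent.INJ.Inst.LP

open Polynomial IntermediateField AlgebraicCurve IsDedekindDomain Fermat.Agent.S24
open scoped IntermediateField.algebraAdjoinAdjoin

section Abstract

variable {R : Type*} [CommRing R] [IsDedekindDomain R]

/-- CRT: an element of `R` with prescribed (natural) orders at finitely many primes. -/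
theorem exists_intValuation_eq {ι : Type*} [Finite ι] (P : ι → HeightOneSpectrum R)
    (hP : Function.Injective P) (n : ι → ℕ) :
    ∃ y : R, y ≠ 0 ∧ ∀ i, (P i).intValuation y = WithZero.exp (-(n i : ℤ)) := by
  classical
  rcases isEmpty_or_nonempty ι with hι | ⟨⟨i₀⟩⟩
  · exact ⟨1, one_ne_zero, fun i => (hι.false i).elim⟩
  have := Fintype.ofFinite ι
  choose π hπ using fun i => (P i).intValuation_exists_uniformizer
  obtain ⟨y, hy⟩ := IsDedekindDomain.exists_forall_sub_mem_ideal (s := Finset.univ)
    (fun i => (P i).asIdeal) (fun i => n i + 1) (fun i _ => (P i).prime)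
    (fun i _ j _ hij h => hij (hP (HeightOneSpectrum.ext h)))
    (fun i => π i.1 ^ n i.1)
  have key : ∀ i, (P i).intValuation y = WithZero.exp (-(n i : ℤ)) := by
    intro i
    have h1 : (P i).intValuation (y - π i ^ n i) ≤ WithZero.exp (-((n i + 1 : ℕ) : ℤ)) :=
      ((P i).intValuation_le_pow_iff_mem _ _).2 (hy i (Finset.mem_univ i))
    have h2 : (P i).intValuation (π i ^ n i) = WithZero.exp (-(n i : ℤ)) := by
      rw [map_pow, hπ, ← WithZero.exp_nsmul]
      simp
    have h3 : (P i).intValuation (y - π i ^ n i) < (P i).intValuation (π i ^ n i) := by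
      rw [h2]
      refine lt_of_le_of_lt h1 ?_
      rw [WithZero.exp_lt_exp]
      push_cast
      omega
    have h4 : y = π i ^ n i + (y - π i ^ n i) := by ring
    rw [h4, Valuation.map_add_eq_of_lt_left _ h3, h2]
  refine ⟨y, ?_, key⟩
  rintro rfl
  have := key i₀
  rw [map_zero] at this
  exact WithZero.exp_ne_zero this.symm

variable {K F : Type*} [Field K] [Field F] [Algebra K F] [Algebra R F] [IsFractionRing R F]
  [Algebra K R] [IsScalarTower K R F]

theorem ord_algebraMap_of_intValuation (P : HeightOneSpectrum R) (y : R) (hy : y ≠ 0) (n : ℕ)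
    (h : P.intValuation y = WithZero.exp (-(n : ℤ))) :
    (Place.ofHeightOneSpectrum (K := K) P).ord (algebraMap R F y) = n := by
  have hy' : algebraMap R F y ≠ 0 := by
    simpa using (IsFractionRing.injective R F).ne hy
  rw [ord_ofHeightOneSpectrum P _ hy', HeightOneSpectrum.valuation_of_algebraMap, h,
    WithZero.log_exp, neg_neg]

/-- weak approximation: an element of `F` with prescribed orders at finitely many primes. -/
theorem exists_ord_eq {ι : Type*} [Finite ι] (P : ι → HeightOneSpectrum R)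
    (hP : Function.Injective P) (n : ι → ℤ) :
    ∃ α : F, α ≠ 0 ∧ ∀ i, (Place.ofHeightOneSpectrum (K := K) (P i)).ord α = n i := by
  obtain ⟨y₁, hy₁, h₁⟩ := exists_intValuation_eq P hP (fun i => (n i).toNat)
  obtain ⟨y₂, hy₂, h₂⟩ := exists_intValuation_eq P hP (fun i => (-n i).toNat)
  have hy₁' : algebraMap R F y₁ ≠ 0 := by
    simpa using (IsFractionRing.injective R F).ne hy₁
  have hy₂' : algebraMap R F y₂ ≠ 0 := by
    simpa using (IsFractionRing.injective R F).ne hy₂
  refine ⟨algebraMap R F y₁ * (algebraMap R F y₂)⁻¹, mul_ne_zero hy₁' (inv_ne_zero hy₂'),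
    fun i => ?_⟩
  rw [Place.ord_mul _ hy₁' (inv_ne_zero hy₂'), Place.ord_inv,
    ord_algebraMap_of_intValuation (K := K) (F := F) (P i) y₁ hy₁ _ (h₁ i),
    ord_algebraMap_of_intValuation (K := K) (F := F) (P i) y₂ hy₂ _ (h₂ i)]
  omega

end Abstract

section Concrete

variable {K F : Type*} [Field K] [Field F] [Algebra K F]

theorem transcendental_sub_algebraMap {t : F} (ht : Transcendental K t) (c : K) :
    Transcendental K (t - algebraMap K F c) := by
  intro h
  apply ht
  have := h.add (isAlgebraic_algebraMap (A := F) c)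
  rwa [sub_add_cancel] at this

theorem mem_of_ord_sub_pos (v : Place K F) {t : F} {c : K}
    (h : 0 < v.ord (t - algebraMap K F c)) : t ∈ v.toValuationSubring := by
  have h0 : t - algebraMap K F c ≠ 0 := by
    intro h0
    rw [h0, Place.ord_zero] at h
    exact lt_irrefl _ h
  have h1 := mem_of_ord_nonneg v h0 h.le
  have h2 := add_mem h1 (v.algebraMap_mem' c)
  rwa [sub_add_cancel] at h2

variable [IsAlgClosed K] [CharZero K]

omit [IsAlgClosed K] in
/-- clearing the denominators away from `t = c`. -/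
theorem exists_clear {t : F} (ht : Transcendental K t) [FiniteDimensional K⟮t⟯ F] (c : K) (z : F)
    (hz : z ≠ 0) (h : ∀ v : Place K F, 0 < v.ord (t - algebraMap K F c) → 0 ≤ v.ord z) :
    ∃ R : K[X], R.eval c ≠ 0 ∧ IsInt K t (aeval t R * z) := by
  have := intRing_isDedekindDomain ht
  have := intRing_isFractionRing (K := K) t
  have halg : IsAlgebraic (polyRing K t) z :=
    (IsFractionRing.isAlgebraic_iff (polyRing K t) K⟮t⟯ F).2 (Algebra.IsAlgebraic.isAlgebraic z)
  obtain ⟨b, hb0, hb⟩ := halg.exists_integral_multiple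
  obtain ⟨Bp, rfl⟩ := Tame.evPoly_surjective t b
  have hBp : Bp ≠ 0 := by
    rintro rfl
    exact hb0 (map_zero _)
  obtain ⟨q, hq, hdvd⟩ := exists_eq_pow_rootMultiplicity_mul_and_not_dvd Bp hBp c
  set e := Bp.rootMultiplicity c with he
  refine ⟨q, fun h0 => hdvd (dvd_iff_isRoot.2 h0), ?_⟩
  have hq0 : q ≠ 0 := by
    rintro rfl
    exact hdvd (dvd_zero _)
  have hq0' : aeval t q ≠ 0 := fun h0 => hq0 ((transcendental_iff.1 ht) q h0)
  have htc0 : t - algebraMap K F c ≠ 0 := fun h0 =>
    transcendental_sub_algebraMap ht c (h0 ▸ isAlgebraic_zero)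
  have hw0 : aeval t q * z ≠ 0 := mul_ne_zero hq0' hz
  have hrel : (Tame.evPoly t Bp) • z = (t - algebraMap K F c) ^ e * (aeval t q * z) := by
    rw [Algebra.smul_def]
    show ((Tame.evPoly t Bp : polyRing K t) : F) * z = _
    rw [Tame.coe_evPoly]
    conv_lhs => rw [hq]
    simp [mul_assoc]
  have h1 : ∀ P : HeightOneSpectrum (intRing K t), P.valuation F (aeval t q * z) ≤ 1 := by
    intro P
    rw [← ord_ofHeightOneSpectrum_nonneg_iff (K := K) P _ hw0]
    have hint : ∀ y : F, IsIntegral (polyRing K t) y →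
        0 ≤ (Place.ofHeightOneSpectrum (K := K) P).ord y := fun y hy =>
      ord_algebraMap_nonneg (K := K) (F := F) P (⟨y, hy⟩ : intRing K t)
    have hpoly : ∀ p : K[X], 0 ≤ (Place.ofHeightOneSpectrum (K := K) P).ord (aeval t p) := by
      intro p
      rw [← Tame.coe_evPoly]
      exact hint _ isIntegral_algebraMap
    by_cases hP : 0 < (Place.ofHeightOneSpectrum (K := K) P).ord (t - algebraMap K F c)
    · rw [Place.ord_mul _ hq0' hz]
      exact add_nonneg (hpoly q) (h _ hP)
    · have h2 : 0 ≤ (Place.ofHeightOneSpectrum (K := K) P).ord (t - algebraMap K F c) := by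
        have := hpoly (X - C c)
        simpa using this
      have h3 : (Place.ofHeightOneSpectrum (K := K) P).ord (t - algebraMap K F c) = 0 :=
        le_antisymm (not_lt.1 hP) h2
      have h4 := hint _ hb
      rw [hrel, Place.ord_mul _ (pow_ne_zero _ htc0) hw0, ← zpow_natCast, Place.ord_zpow, h3,
        mul_zero, zero_add] at h4
      exact h4
  obtain ⟨b, hb⟩ := HeightOneSpectrum.mem_integers_of_valuation_le_one F _ h1
  rw [← hb]
  exact b.2

/-- **[LP]** -/
theorem locPow {t u : F} {m : ℕ} (ht : Transcendental K t) [FiniteDimensional K⟮t⟯ F]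
    (hu : u ≠ 0) (hm : 0 < m) (hdiv : ∀ P : Place K F, (m : ℤ) ∣ P.ord u) : LocPow K t u m := by
  intro c
  have := intRing_isDedekindDomain ht
  have := intRing_isFractionRing (K := K) t
  have htc := transcendental_sub_algebraMap ht c
  have hfd : FiniteDimensional K⟮t - algebraMap K F c⟯ F :=
    finiteDimensional_adjoin_simple_of_transcendental t ht _ htc
  have hfin := zeroPlaces_finite (K := K) _ htc
  have : Finite (zeroPlaces (K := K) (t - algebraMap K F c)) := hfin
  have hex : ∀ v : zeroPlaces (K := K) (t - algebraMap K F c),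
      ∃ P : HeightOneSpectrum (intRing K t), v.1 = Place.ofHeightOneSpectrum P := fun v =>
    exists_heightOneSpectrum_of_le v.1 fun r =>
      intRing_le_valuationSubring v.1 (mem_of_ord_sub_pos v.1 v.2) r
  choose P hP using hex
  have hPinj : Function.Injective P := by
    intro v w h
    apply Subtype.ext
    rw [hP v, hP w, h]
  obtain ⟨α, hα0, hα⟩ := exists_ord_eq (K := K) (F := F) P hPinj (fun v => - (v.1.ord u / m))
  have hz0 : α ^ m * u ≠ 0 := mul_ne_zero (pow_ne_zero _ hα0) hu
  have hz : ∀ v : Place K F, 0 < v.ord (t - algebraMap K F c) → v.ord (α ^ m * u) = 0 := by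
    intro v hv
    have h1 := hα ⟨v, hv⟩
    rw [← hP ⟨v, hv⟩] at h1
    rw [Place.ord_mul _ (pow_ne_zero _ hα0) hu, ← zpow_natCast, Place.ord_zpow, h1]
    obtain ⟨d, hd⟩ := hdiv v
    have hm' : (m : ℤ) ≠ 0 := by exact_mod_cast hm.ne'
    simp only [hd]
    rw [Int.mul_ediv_cancel_left _ hm']
    ring
  obtain ⟨R₁, hR₁, h₁⟩ := exists_clear ht c _ hz0 (fun v hv => (hz v hv).ge)
  obtain ⟨R₂, hR₂, h₂⟩ := exists_clear ht c _ (inv_ne_zero hz0) (fun v hv => by
    rw [Place.ord_inv, hz v hv, neg_zero])
  have hpoly : ∀ p : K[X], IsInt K t (aeval t p) := by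
    intro p
    rw [← Tame.coe_evPoly]
    exact isIntegral_algebraMap
  refine ⟨α, R₁ * R₂, hα0, ?_, ?_, ?_⟩
  · rw [eval_mul]
    exact mul_ne_zero hR₁ hR₂
  · have h3 : IsInt K t (aeval t R₂ * (aeval t R₁ * (α ^ m * u))) := (hpoly R₂).mul h₁
    rw [map_mul, mul_comm (aeval t R₁), mul_assoc]
    exact h3
  · have h3 : IsInt K t (aeval t R₁ * (aeval t R₂ * (α ^ m * u)⁻¹)) := (hpoly R₁).mul h₂
    rw [map_mul, mul_assoc]
    exact h3

end Concrete

end Fermat.Agent.INJ.Inst.LP

namespace Fermat.Agent.INJ.Inst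

theorem stmt_LocPow : Stmt_LocPow := by
  intro K F _ _ _ _ _ t u m ht hfd hu hm hdiv
  exact LP.locPow ht hu hm hdiv

end Fermat.Agent.INJ.Inst
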